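import Mathlib

/-!
# PROJECT D (S48), brick B7a (helper16): Liouville's theorem for elliptic functions

A function on `ℂ` which is holomorphic off a lattice `L`, `L`-periodic, and `o(1 / z)` at `0`
is constant off `L` (removable singularities + Liouville).
-/

set_option autoImplicit false
set_option linter.unusedVariables false

noncomputable section

namespace Fermat.Agent.S48.Eis1.Elliptic

open Filter Topology Complex Function Set

/-- near every point, every other point is off the lattice -/
theorem eventually_notMem_lattice (L : PeriodPair) (z0 : ℂ) :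
    ∀ᶠ z in 𝓝[≠] z0, z ∉ L.lattice := by
  have h1 := L.compl_lattice_sdiff_singleton_mem_nhds z0
  have h2 : ((↑L.lattice : Set ℂ) \ {z0})ᶜ ∩ {z0}ᶜ ∈ 𝓝[≠] z0 :=
    inter_mem_nhdsWithin _ h1 |> fun h => by rwa [inter_comm] at h
  filter_upwards [h2] with z hz
  obtain ⟨hz1, hz2⟩ := hz
  intro hzL
  exact hz1 ⟨hzL, hz2⟩

/-- periodicity for the two generators gives periodicity for the whole lattice -/
theorem periodic_of_generators (L : PeriodPair) (D : ℂ → ℂ)
    (h1 : ∀ z ∉ L.lattice, D (z + L.ω₁) = D z) (h2 : ∀ z ∉ L.lattice, D (z + L.ω₂) = D z) :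
    ∀ ω ∈ L.lattice, ∀ z ∉ L.lattice, D (z + ω) = D z := by
  intro ω hω
  have hmem : ω ∈ AddSubgroup.closure ({L.ω₁, L.ω₂} : Set ℂ) := by
    have h := Submodule.span_int_eq_addSubgroupClosure ({L.ω₁, L.ω₂} : Set ℂ)
    have h3 : ω ∈ (Submodule.span ℤ ({L.ω₁, L.ω₂} : Set ℂ)).toAddSubgroup := hω
    rwa [h] at h3
  have hLmem : ∀ x ∈ AddSubgroup.closure ({L.ω₁, L.ω₂} : Set ℂ), x ∈ L.lattice := by
    intro x hx
    have h := Submodule.span_int_eq_addSubgroupClosure ({L.ω₁, L.ω₂} : Set ℂ)
    rw [← h] at hx
    exact hx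
  refine AddSubgroup.closure_induction (p := fun ω _ => ∀ z ∉ L.lattice, D (z + ω) = D z)
    ?_ ?_ ?_ ?_ hmem
  · intro x hx z hz
    rcases hx with rfl | rfl
    · exact h1 z hz
    · exact h2 z hz
  · intro z hz
    rw [add_zero]
  · intro x y hx hy hpx hpy z hz
    have hzx : z + x ∉ L.lattice := by
      intro h
      exact hz (by simpa using L.lattice.sub_mem h (hLmem x hx))
    rw [← add_assoc, hpy (z + x) hzx, hpx z hz]
  · intro x hx hpx z hz
    have hzx : z + -x ∉ L.lattice := by
      intro h
      exact hz (by simpa using L.lattice.add_mem h (hLmem x hx))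
    have h := hpx (z + -x) hzx
    rw [neg_add_cancel_right] at h
    exact h.symm

/-- **Liouville for elliptic functions with removable singularities** -/
theorem eq_const_of_periodic (L : PeriodPair) (D : ℂ → ℂ)
    (hd : ∀ z ∉ L.lattice, DifferentiableAt ℂ D z)
    (h1 : ∀ z ∉ L.lattice, D (z + L.ω₁) = D z) (h2 : ∀ z ∉ L.lattice, D (z + L.ω₂) = D z)
    (h0 : Tendsto (fun z => z * D z) (𝓝[≠] 0) (𝓝 0)) :
    ∃ c, ∀ z ∉ L.lattice, D z = c := by
  have hper := periodic_of_generators L D h1 h2
  -- the extension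
  set Dh : ℂ → ℂ := fun z => limUnder (𝓝[≠] z) D with hDh
  have hDh_eq : ∀ z ∉ L.lattice, Dh z = D z := by
    intro z hz
    exact ((hd z hz).continuousAt.tendsto.mono_left nhdsWithin_le_nhds).limUnder_eq
  -- the little-o condition at every point
  have ho : ∀ z0 : ℂ, (fun z => D z - D z0) =o[𝓝[≠] z0] fun z => (z - z0)⁻¹ := by
    intro z0
    rw [Asymptotics.isLittleO_iff_tendsto']
    swap
    · filter_upwards [self_mem_nhdsWithin] with z hz h
      exact absurd (inv_eq_zero.mp h) (sub_ne_zero.mpr hz)
    have hsub : Tendsto (fun z : ℂ => z - z0) (𝓝[≠] z0) (𝓝[≠] 0) := by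
      rw [tendsto_nhdsWithin_iff]
      constructor
      · have h : Tendsto (fun z : ℂ => z - z0) (𝓝 z0) (𝓝 (z0 - z0)) :=
          (continuous_id.sub continuous_const).tendsto z0
        rw [sub_self] at h
        exact h.mono_left nhdsWithin_le_nhds
      · filter_upwards [self_mem_nhdsWithin] with z hz
        exact sub_ne_zero.mpr hz
    have hsub0 : Tendsto (fun z : ℂ => z - z0) (𝓝[≠] z0) (𝓝 0) :=
      hsub.mono_right nhdsWithin_le_nhds
    by_cases hz0 : z0 ∈ L.lattice
    · -- a lattice point: transport to `0`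
      have h3 : Tendsto (fun z => (z - z0) * D (z - z0)) (𝓝[≠] z0) (𝓝 0) := h0.comp hsub
      have h4 : Tendsto (fun z => (z - z0) * D z0) (𝓝[≠] z0) (𝓝 0) := by
        have := hsub0.mul_const (D z0)
        rwa [zero_mul] at this
      have h5 := h3.sub h4
      rw [sub_zero] at h5
      refine h5.congr' ?_
      filter_upwards [eventually_notMem_lattice L z0, self_mem_nhdsWithin] with z hz hne
      have hzz : z - z0 ∉ L.lattice := by
        intro h
        exact hz (by simpa using L.lattice.add_mem h hz0)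
      have h6 : D z = D (z - z0) := by
        have := hper z0 hz0 (z - z0) hzz
        rwa [sub_add_cancel] at this
      rw [h6, div_eq_mul_inv, inv_inv]
      ring
    · -- a regular point
      have h3 : Tendsto (fun z => D z - D z0) (𝓝[≠] z0) (𝓝 0) := by
        have := ((hd z0 hz0).continuousAt.tendsto.mono_left
          (nhdsWithin_le_nhds (s := {z0}ᶜ))).sub_const (D z0)
        rwa [sub_self] at this
      have h4 := h3.mul hsub0
      rw [zero_mul] at h4
      refine h4.congr fun z => ?_
      rw [div_eq_mul_inv, inv_inv]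
  -- `Dh` is entire
  have hdiff : Differentiable ℂ Dh := by
    intro z0
    obtain ⟨s, hs, hsL⟩ := mem_nhdsWithin_iff_exists_mem_nhds_inter.mp
      (eventually_notMem_lattice L z0)
    obtain ⟨t, hts, htopen, hz0t⟩ := mem_nhds_iff.mp hs
    have htL : ∀ z ∈ t \ {z0}, z ∉ L.lattice := fun z hz => hsL ⟨hts hz.1, hz.2⟩
    have hdt : DifferentiableOn ℂ D (t \ {z0}) := fun z hz =>
      (hd z (htL z hz)).differentiableWithinAt
    have h3 := Complex.differentiableOn_update_limUnder_of_isLittleO (htopen.mem_nhds hz0t) hdt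
      (ho z0)
    have h4 : ∀ z ∈ t, Dh z = update D z0 (limUnder (𝓝[≠] z0) D) z := by
      intro z hz
      by_cases hzz : z = z0
      · subst hzz
        rw [update_self]
      · rw [update_of_ne hzz]
        exact hDh_eq z (htL z ⟨hz, hzz⟩)
    have h5 : DifferentiableOn ℂ Dh t := h3.congr h4
    exact h5.differentiableAt (htopen.mem_nhds hz0t)
  -- `Dh` is periodic
  have hDhper : ∀ ω ∈ L.lattice, ∀ z : ℂ, Dh (z + ω) = Dh z := by
    intro ω hω z
    have hev : ∀ᶠ w in 𝓝[≠] z, Dh (w + ω) = Dh w := by
      filter_upwards [eventually_notMem_lattice L z] with w hw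
      have hwω : w + ω ∉ L.lattice := by
        intro h
        exact hw (by simpa using L.lattice.sub_mem h hω)
      rw [hDh_eq w hw, hDh_eq (w + ω) hwω, hper ω hω w hw]
    have hc1 : Tendsto (fun w => Dh (w + ω)) (𝓝[≠] z) (𝓝 (Dh (z + ω))) := by
      have h : Continuous fun w => Dh (w + ω) :=
        hdiff.continuous.comp (continuous_id.add continuous_const)
      exact (h.tendsto z).mono_left nhdsWithin_le_nhds
    have hc2 : Tendsto Dh (𝓝[≠] z) (𝓝 (Dh z)) :=
      (hdiff.continuous.tendsto z).mono_left nhdsWithin_le_nhds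
    exact tendsto_nhds_unique (hc1.congr' hev) hc2
  -- `Dh` is bounded
  have hbdd : Bornology.IsBounded (range Dh) := by
    have hK : IsCompact (closure (ZSpan.fundamentalDomain L.basis)) :=
      Metric.isCompact_of_isClosed_isBounded isClosed_closure
        (ZSpan.fundamentalDomain_isBounded L.basis).closure
    have himg := (hK.image hdiff.continuous).isBounded
    refine himg.subset ?_
    rintro _ ⟨z, rfl⟩
    refine ⟨ZSpan.fract L.basis z, subset_closure (ZSpan.fract_mem_fundamentalDomain L.basis z), ?_⟩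
    have hfl : ((ZSpan.floor L.basis z : Submodule.span ℤ (Set.range L.basis)) : ℂ) ∈ L.lattice := by
      rw [L.lattice_eq_span_range_basis]
      exact (ZSpan.floor L.basis z).2
    have h := hDhper _ hfl (ZSpan.fract L.basis z)
    rw [ZSpan.fract_apply, sub_add_cancel] at h
    exact h.symm
  refine ⟨Dh 0, fun z hz => ?_⟩
  rw [← hDh_eq z hz]
  exact hdiff.apply_eq_apply_of_bounded hbdd z 0

end Fermat.Agent.S48.Eis1.Elliptic
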