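import Mathlib

/-!
# PROJECT D (S48), brick B7a (helper16): the Kronecker–Eisenstein function of weight one,
in the multiplicative variables `u = e(z)`, `q = e(τ)`

`kronE u q = (u + 1) / (2 (u - 1)) + ∑_{m ≥ 1} (q ^ m / (u - q ^ m) - u q ^ m / (1 - u q ^ m))`

(`= (2 π i)⁻¹ (ζ(z; τ) - η₁ z)` classically).  This file: the terms, summability, oddness
`kronE u⁻¹ q = - kronE u q` and the quasi-period `kronE (u q) q = kronE u q - 1`.
-/

set_option autoImplicit false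

noncomputable section

namespace Fermat.Agent.S48.Eis1.Kron

open Filter Topology

/-- the polar term `(u + 1) / (2 (u - 1))` -/
def cTerm (u : ℂ) : ℂ := (u + 1) / (2 * (u - 1))

/-- `A_m = q ^ m / (u - q ^ m)` -/
def aTerm (u q : ℂ) (m : ℕ) : ℂ := q ^ m / (u - q ^ m)

/-- `B_m = u q ^ m / (1 - u q ^ m)` -/
def bTerm (u q : ℂ) (m : ℕ) : ℂ := u * q ^ m / (1 - u * q ^ m)

/-- the `m`-th term (`m ≥ 0` stands for the index `m + 1`) -/
def kTerm (u q : ℂ) (m : ℕ) : ℂ := aTerm u q (m + 1) - bTerm u q (m + 1)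

/-- the Kronecker–Eisenstein function of weight one in the variables `u = e(z)`, `q = e(τ)` -/
def kronE (u q : ℂ) : ℂ := cTerm u + ∑' m : ℕ, kTerm u q m

/-! ### Bounds and summability -/

theorem norm_aTerm_le {u q : ℂ} {m : ℕ} (h : 2 * ‖q‖ ^ m ≤ ‖u‖) (hu : u ≠ 0) :
    ‖aTerm u q m‖ ≤ 2 / ‖u‖ * ‖q‖ ^ m := by
  have hu' : 0 < ‖u‖ := norm_pos_iff.mpr hu
  have h1 : ‖u‖ / 2 ≤ ‖u - q ^ m‖ := by
    have h2 : ‖u‖ - ‖q ^ m‖ ≤ ‖u - q ^ m‖ := norm_sub_norm_le u (q ^ m)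
    rw [norm_pow] at h2
    linarith
  have h3 : 0 < ‖u - q ^ m‖ := by linarith
  rw [aTerm, norm_div, norm_pow, div_le_iff₀ h3]
  have h4 : 0 ≤ ‖q‖ ^ m := pow_nonneg (norm_nonneg q) m
  calc ‖q‖ ^ m = 2 / ‖u‖ * ‖q‖ ^ m * (‖u‖ / 2) := by field_simp
    _ ≤ 2 / ‖u‖ * ‖q‖ ^ m * ‖u - q ^ m‖ :=
        mul_le_mul_of_nonneg_left h1 (mul_nonneg (by positivity) h4)

theorem norm_bTerm_le {u q : ℂ} {m : ℕ} (h : 2 * (‖u‖ * ‖q‖ ^ m) ≤ 1) :
    ‖bTerm u q m‖ ≤ 2 * ‖u‖ * ‖q‖ ^ m := by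
  have h1 : 1 / 2 ≤ ‖1 - u * q ^ m‖ := by
    have h2 : ‖(1 : ℂ)‖ - ‖u * q ^ m‖ ≤ ‖1 - u * q ^ m‖ := norm_sub_norm_le 1 (u * q ^ m)
    rw [norm_one, norm_mul, norm_pow] at h2
    linarith
  have h3 : 0 < ‖1 - u * q ^ m‖ := by linarith
  rw [bTerm, norm_div, norm_mul, norm_pow, div_le_iff₀ h3]
  have h4 : 0 ≤ ‖u‖ * ‖q‖ ^ m := mul_nonneg (norm_nonneg u) (pow_nonneg (norm_nonneg q) m)
  calc ‖u‖ * ‖q‖ ^ m = 2 * ‖u‖ * ‖q‖ ^ m * (1 / 2) := by ring
    _ ≤ 2 * ‖u‖ * ‖q‖ ^ m * ‖1 - u * q ^ m‖ := by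
        refine mul_le_mul_of_nonneg_left h1 ?_
        nlinarith [h4]

theorem eventually_pow_le {q : ℂ} (hq : ‖q‖ < 1) {c : ℝ} (hc : 0 < c) :
    ∀ᶠ m : ℕ in atTop, ‖q‖ ^ m ≤ c := by
  have h := tendsto_pow_atTop_nhds_zero_of_lt_one (norm_nonneg q) hq
  exact (h.eventually (Iic_mem_nhds hc)).mono fun m hm => hm

theorem summable_aTerm {u q : ℂ} (hq : ‖q‖ < 1) (hu : u ≠ 0) : Summable (aTerm u q) := by
  have hu' : 0 < ‖u‖ := norm_pos_iff.mpr hu
  refine Summable.of_norm_bounded_eventually_nat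
    ((summable_geometric_of_lt_one (norm_nonneg q) hq).mul_left (2 / ‖u‖)) ?_
  filter_upwards [eventually_pow_le hq (half_pos hu')] with m hm
  exact norm_aTerm_le (by linarith) hu

theorem summable_bTerm {u q : ℂ} (hq : ‖q‖ < 1) : Summable (bTerm u q) := by
  refine Summable.of_norm_bounded_eventually_nat
    ((summable_geometric_of_lt_one (norm_nonneg q) hq).mul_left (2 * ‖u‖)) ?_
  have hc : 0 < 1 / (2 * (‖u‖ + 1)) := by positivity
  filter_upwards [eventually_pow_le hq hc] with m hm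
  refine norm_bTerm_le ?_
  have h1 : ‖u‖ * ‖q‖ ^ m ≤ (‖u‖ + 1) * (1 / (2 * (‖u‖ + 1))) := by
    have h2 : 0 ≤ ‖q‖ ^ m := pow_nonneg (norm_nonneg q) m
    nlinarith [norm_nonneg u]
  have h3 : (‖u‖ + 1) * (1 / (2 * (‖u‖ + 1))) = 1 / 2 := by
    field_simp
  linarith

theorem summable_kTerm {u q : ℂ} (hq : ‖q‖ < 1) (hu : u ≠ 0) : Summable (kTerm u q) :=
  ((summable_nat_add_iff 1).mpr (summable_aTerm hq hu)).sub
    ((summable_nat_add_iff 1).mpr (summable_bTerm hq))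

theorem tendsto_aTerm {u q : ℂ} (hq : ‖q‖ < 1) (hu : u ≠ 0) :
    Tendsto (aTerm u q) atTop (𝓝 0) := (summable_aTerm hq hu).tendsto_atTop_zero

theorem tendsto_bTerm {u q : ℂ} (hq : ‖q‖ < 1) : Tendsto (bTerm u q) atTop (𝓝 0) :=
  (summable_bTerm hq).tendsto_atTop_zero

/-! ### Oddness -/

theorem cTerm_inv {u : ℂ} (hu : u ≠ 0) : cTerm u⁻¹ = - cTerm u := by
  unfold cTerm
  by_cases h1 : u = 1
  · subst h1
    simp
  · have h2 : u - 1 ≠ 0 := sub_ne_zero.mpr h1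
    have h3 : u⁻¹ - 1 ≠ 0 := by
      intro h
      apply h1
      have h4 : u⁻¹ = 1 := sub_eq_zero.mp h
      rw [← inv_inv u, h4, inv_one]
    field_simp
    ring

theorem aTerm_inv {u q : ℂ} (hu : u ≠ 0) (m : ℕ) : aTerm u⁻¹ q m = bTerm u q m := by
  unfold aTerm bTerm
  by_cases h1 : 1 - u * q ^ m = 0
  · have h2 : u⁻¹ - q ^ m = 0 := by
      have h3 : u * q ^ m = 1 := (sub_eq_zero.mp h1).symm
      rw [sub_eq_zero]
      exact (eq_inv_of_mul_eq_one_right h3).symm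
    rw [h1, h2, div_zero, div_zero]
  · have h2 : u⁻¹ - q ^ m ≠ 0 := by
      intro h
      apply h1
      have h3 : u⁻¹ = q ^ m := sub_eq_zero.mp h
      rw [← h3, mul_inv_cancel₀ hu, sub_self]
    field_simp

theorem bTerm_inv {u q : ℂ} (hu : u ≠ 0) (m : ℕ) : bTerm u⁻¹ q m = aTerm u q m := by
  have h := aTerm_inv (inv_ne_zero hu) (q := q) m
  rw [inv_inv] at h
  exact h.symm

theorem kTerm_inv {u q : ℂ} (hu : u ≠ 0) (m : ℕ) : kTerm u⁻¹ q m = - kTerm u q m := by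
  unfold kTerm
  rw [aTerm_inv hu, bTerm_inv hu]
  ring

/-- **oddness**: `kronE u⁻¹ q = - kronE u q` -/
theorem kronE_inv {u q : ℂ} (hu : u ≠ 0) : kronE u⁻¹ q = - kronE u q := by
  unfold kronE
  rw [cTerm_inv hu, tsum_congr (kTerm_inv hu (q := q)), tsum_neg]
  ring

/-! ### The quasi-period -/

theorem aTerm_mul {u q : ℂ} (hq : q ≠ 0) (m : ℕ) : aTerm (u * q) q (m + 1) = aTerm u q m := by
  unfold aTerm
  have h1 : u * q - q ^ (m + 1) = q * (u - q ^ m) := by ring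
  rw [h1, pow_succ', mul_div_mul_left _ _ hq]

theorem bTerm_mul (u q : ℂ) (m : ℕ) : bTerm (u * q) q m = bTerm u q (m + 1) := by
  unfold bTerm
  have h1 : u * q * q ^ m = u * q ^ (m + 1) := by ring
  rw [h1]

/-- **the quasi-period**: `kronE (u q) q = kronE u q - 1` -/
theorem kronE_mul {u q : ℂ} (hq0 : q ≠ 0) (hq : ‖q‖ < 1) (hu : u ≠ 0) (hu1 : u ≠ 1)
    (huq : u * q ≠ 1) : kronE (u * q) q = kronE u q - 1 := by
  have huq0 : u * q ≠ 0 := mul_ne_zero hu hq0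
  have hs1 := summable_kTerm hq huq0
  have hs2 := summable_kTerm hq hu
  -- the telescoping sum
  have hf : Tendsto (fun m => aTerm u q m + bTerm u q (m + 1)) atTop (𝓝 0) := by
    have hb : Tendsto (fun m => bTerm u q (m + 1)) atTop (𝓝 0) :=
      (tendsto_add_atTop_iff_nat 1).mpr (tendsto_bTerm (u := u) hq)
    have h := (tendsto_aTerm hq hu).add hb
    simpa using h
  have htel : HasSum (fun m => kTerm (u * q) q m - kTerm u q m)
      (aTerm u q 0 + bTerm u q 1) := by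
    have h1 : ∀ m, kTerm (u * q) q m - kTerm u q m =
        (aTerm u q m + bTerm u q (m + 1)) - (aTerm u q (m + 1) + bTerm u q (m + 1 + 1)) := by
      intro m
      unfold kTerm
      rw [aTerm_mul hq0, bTerm_mul]
      ring
    rw [funext h1, (hs1.sub hs2 |>.congr ?_ : Summable _).hasSum_iff_tendsto_nat]
    · have h2 : ∀ n, ∑ i ∈ Finset.range n,
          ((aTerm u q i + bTerm u q (i + 1)) - (aTerm u q (i + 1) + bTerm u q (i + 1 + 1))) =
          (aTerm u q 0 + bTerm u q 1) - (aTerm u q n + bTerm u q (n + 1)) := by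
        intro n
        rw [Finset.sum_range_sub']
      rw [funext h2]
      have h3 := (tendsto_const_nhds (x := aTerm u q 0 + bTerm u q 1)).sub hf
      simpa using h3
    · intro m
      exact h1 m
  have hsum : ∑' m, kTerm (u * q) q m - ∑' m, kTerm u q m = aTerm u q 0 + bTerm u q 1 := by
    rw [← hs1.tsum_sub hs2]
    exact htel.tsum_eq
  have h1 : ∑' m, kTerm (u * q) q m = ∑' m, kTerm u q m + (aTerm u q 0 + bTerm u q 1) := by
    rw [← hsum]
    ring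
  unfold kronE
  rw [h1]
  unfold cTerm aTerm bTerm
  have h2 : u - 1 ≠ 0 := sub_ne_zero.mpr hu1
  have h3 : u * q - 1 ≠ 0 := sub_ne_zero.mpr huq
  have h4 : 1 - u * q ≠ 0 := by
    intro h
    exact huq (sub_eq_zero.mp h).symm
  rw [pow_zero, pow_one]
  field_simp
  ring

end Fermat.Agent.S48.Eis1.Kron
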