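import Mathlib
import Fermat.Agent.S48.Eis1.Kron

/-!
# PROJECT D (S48), brick B7a (helper16): the Kronecker–Eisenstein function in the variables `(z, τ)`

`kron z τ = kronE (e z) (e τ)`, `e z = exp (2 π i z)`:

* `kron_add_one`, `kron_neg`, `kron_add_tau` (the quasi-period `kron (z + τ) τ = kron z τ - 1`);
* `differentiableAt_kTermSum`, `differentiableAt_kron` : holomorphy in `z` off the poles;
* `tendsto_mul_cTerm_ee`, `tendsto_mul_kron` : `z * kron z τ → 1 / (2 π i)` at `z = 0`.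
-/

set_option autoImplicit false
set_option linter.unusedVariables false

noncomputable section

namespace Fermat.Agent.S48.Eis1.KronZ

open Filter Topology Complex Fermat.Agent.S48.Eis1.Kron

/-- `e z = exp (2 π i z)` -/
def ee (z : ℂ) : ℂ := Complex.exp (2 * Real.pi * I * z)

theorem ee_ne_zero (z : ℂ) : ee z ≠ 0 := Complex.exp_ne_zero _

theorem ee_add (z w : ℂ) : ee (z + w) = ee z * ee w := by
  unfold ee
  rw [mul_add, Complex.exp_add]

theorem ee_zero : ee 0 = 1 := by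
  unfold ee
  rw [mul_zero, Complex.exp_zero]

theorem ee_neg (z : ℂ) : ee (-z) = (ee z)⁻¹ := by
  unfold ee
  rw [mul_neg, Complex.exp_neg]

theorem ee_one : ee 1 = 1 := by
  unfold ee
  rw [mul_one]
  exact Complex.exp_two_pi_mul_I

theorem ee_add_one (z : ℂ) : ee (z + 1) = ee z := by
  rw [ee_add, ee_one, mul_one]

theorem ee_intCast (n : ℤ) : ee (n : ℂ) = 1 := by
  unfold ee
  rw [Complex.exp_eq_one_iff]
  exact ⟨n, by ring⟩

theorem ee_eq_one_iff {z : ℂ} : ee z = 1 ↔ ∃ n : ℤ, z = n := by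
  unfold ee
  rw [Complex.exp_eq_one_iff]
  have h2 : (2 * (Real.pi : ℂ) * I) ≠ 0 := by
    simp [Real.pi_ne_zero, I_ne_zero]
  constructor
  · rintro ⟨n, hn⟩
    refine ⟨n, ?_⟩
    have h3 : 2 * (Real.pi : ℂ) * I * z = 2 * (Real.pi : ℂ) * I * n := by
      rw [hn]
      ring
    exact mul_left_cancel₀ h2 h3
  · rintro ⟨n, rfl⟩
    exact ⟨n, by ring⟩

theorem norm_ee (z : ℂ) : ‖ee z‖ = Real.exp (-2 * Real.pi * z.im) := by
  unfold ee
  rw [Complex.norm_exp]
  congr 1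
  simp [Complex.mul_re, Complex.mul_im]

theorem norm_ee_lt_one {τ : ℂ} (hτ : 0 < τ.im) : ‖ee τ‖ < 1 := by
  rw [norm_ee, Real.exp_lt_one_iff]
  have := Real.pi_pos
  nlinarith

theorem continuous_ee : Continuous ee := by
  unfold ee
  fun_prop

theorem differentiable_ee : Differentiable ℂ ee := by
  unfold ee
  fun_prop

theorem hasDerivAt_ee (z : ℂ) : HasDerivAt ee (2 * Real.pi * I * ee z) z := by
  unfold ee
  have h1 : HasDerivAt (fun z : ℂ => 2 * (Real.pi : ℂ) * I * z) (2 * Real.pi * I) z := by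
    have h0 := (hasDerivAt_id z).const_mul (2 * (Real.pi : ℂ) * I)
    rw [mul_one] at h0
    exact h0
  exact h1.cexp.congr_deriv (mul_comm _ _)

/-- the Kronecker–Eisenstein function of weight one -/
def kron (z τ : ℂ) : ℂ := kronE (ee z) (ee τ)

theorem kron_add_one (z τ : ℂ) : kron (z + 1) τ = kron z τ := by
  unfold kron
  rw [ee_add_one]

theorem kron_neg (z τ : ℂ) : kron (-z) τ = - kron z τ := by
  unfold kron
  rw [ee_neg, kronE_inv (ee_ne_zero z)]

/-- **the quasi-period** -/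
theorem kron_add_tau {z τ : ℂ} (hτ : 0 < τ.im) (hz : ∀ n : ℤ, z ≠ n) (hz' : ∀ n : ℤ, z + τ ≠ n) :
    kron (z + τ) τ = kron z τ - 1 := by
  unfold kron
  rw [ee_add]
  refine kronE_mul (ee_ne_zero τ) (norm_ee_lt_one hτ) (ee_ne_zero z) ?_ ?_
  · intro h
    obtain ⟨n, hn⟩ := ee_eq_one_iff.mp h
    exact hz n hn
  · intro h
    rw [← ee_add] at h
    obtain ⟨n, hn⟩ := ee_eq_one_iff.mp h
    exact hz' n hn

/-! ### Holomorphy in `z` -/

/-- no pole of the non-polar part at `u` -/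
def Reg (u q : ℂ) : Prop := ∀ m : ℕ, u ≠ q ^ (m + 1) ∧ u * q ^ (m + 1) ≠ 1

theorem differentiableAt_aTerm {q z0 : ℂ} (m : ℕ) (h : ee z0 ≠ q ^ m) :
    DifferentiableAt ℂ (fun z => aTerm (ee z) q m) z0 := by
  unfold aTerm
  exact (differentiableAt_const _).div ((differentiable_ee z0).sub (differentiableAt_const _))
    (sub_ne_zero.mpr h)

theorem differentiableAt_bTerm {q z0 : ℂ} (m : ℕ) (h : ee z0 * q ^ m ≠ 1) :
    DifferentiableAt ℂ (fun z => bTerm (ee z) q m) z0 := by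
  unfold bTerm
  refine ((differentiable_ee z0).mul_const _).div
    ((differentiableAt_const _).sub ((differentiable_ee z0).mul_const _)) ?_
  intro h0
  exact h (sub_eq_zero.mp h0).symm

theorem differentiableAt_kTerm {q z0 : ℂ} (m : ℕ) (h1 : ee z0 ≠ q ^ (m + 1))
    (h2 : ee z0 * q ^ (m + 1) ≠ 1) : DifferentiableAt ℂ (fun z => kTerm (ee z) q m) z0 := by
  unfold kTerm
  exact (differentiableAt_aTerm (m + 1) h1).sub (differentiableAt_bTerm (m + 1) h2)

/-- the tail of the series is holomorphic on an annulus `a < |u| < b` -/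
theorem differentiableOn_tail {q : ℂ} (hq : ‖q‖ < 1) {a b : ℝ} (ha : 0 < a) (hb : 0 < b) {M : ℕ}
    (hM : ∀ m, M ≤ m → 2 * ‖q‖ ^ m ≤ a ∧ 2 * (b * ‖q‖ ^ m) ≤ 1) :
    DifferentiableOn ℂ (fun z => ∑' m, kTerm (ee z) q (m + M))
      {z | a < ‖ee z‖ ∧ ‖ee z‖ < b} := by
  have hopen : IsOpen {z : ℂ | a < ‖ee z‖ ∧ ‖ee z‖ < b} :=
    (isOpen_lt continuous_const continuous_ee.norm).inter
      (isOpen_lt continuous_ee.norm continuous_const)
  have hqn : ∀ m : ℕ, 0 ≤ ‖q‖ ^ m := fun m => pow_nonneg (norm_nonneg q) m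
  refine differentiableOn_tsum_of_summable_norm
    (u := fun m => (2 / a + 2 * b) * ‖q‖ ^ (m + (M + 1))) ?_ ?_ hopen ?_
  · exact ((summable_nat_add_iff (M + 1)).mpr
      (summable_geometric_of_lt_one (norm_nonneg q) hq)).mul_left _
  · intro m z hz
    obtain ⟨hz1, hz2⟩ := hz
    obtain ⟨h1, h2⟩ := hM (m + M + 1) (by omega)
    refine (differentiableAt_kTerm (m + M) ?_ ?_).differentiableWithinAt
    · intro h
      have h3 : ‖ee z‖ = ‖q‖ ^ (m + M + 1) := by rw [h, norm_pow]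
      have := hqn (m + M + 1)
      linarith
    · intro h
      have h3 : ‖ee z‖ * ‖q‖ ^ (m + M + 1) = 1 := by
        rw [← norm_pow, ← norm_mul, h, norm_one]
      have h4 : ‖ee z‖ * ‖q‖ ^ (m + M + 1) ≤ b * ‖q‖ ^ (m + M + 1) :=
        mul_le_mul_of_nonneg_right hz2.le (hqn _)
      linarith
  · intro m z hz
    obtain ⟨hz1, hz2⟩ := hz
    obtain ⟨h1, h2⟩ := hM (m + M + 1) (by omega)
    have hu0 : ee z ≠ 0 := ee_ne_zero z
    have hupos : 0 < ‖ee z‖ := norm_pos_iff.mpr hu0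
    have hA : ‖aTerm (ee z) q (m + M + 1)‖ ≤ 2 / a * ‖q‖ ^ (m + M + 1) := by
      refine (norm_aTerm_le (by linarith) hu0).trans ?_
      refine mul_le_mul_of_nonneg_right ?_ (hqn _)
      exact div_le_div_of_nonneg_left (by norm_num) ha hz1.le
    have hB : ‖bTerm (ee z) q (m + M + 1)‖ ≤ 2 * b * ‖q‖ ^ (m + M + 1) := by
      have h4 : ‖ee z‖ * ‖q‖ ^ (m + M + 1) ≤ b * ‖q‖ ^ (m + M + 1) :=
        mul_le_mul_of_nonneg_right hz2.le (hqn _)
      refine (norm_bTerm_le (by linarith)).trans ?_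
      refine mul_le_mul_of_nonneg_right ?_ (hqn _)
      linarith
    have h5 : kTerm (ee z) q (m + M) =
        aTerm (ee z) q (m + M + 1) - bTerm (ee z) q (m + M + 1) := rfl
    rw [h5]
    refine (norm_sub_le _ _).trans ?_
    have h6 : m + (M + 1) = m + M + 1 := by ring
    rw [h6]
    linarith

/-- **the non-polar part is holomorphic where it has no pole** -/
theorem differentiableAt_kTermSum {τ z0 : ℂ} (hτ : 0 < τ.im) (hreg : Reg (ee z0) (ee τ)) :
    DifferentiableAt ℂ (fun z => ∑' m, kTerm (ee z) (ee τ) m) z0 := by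
  have hq := norm_ee_lt_one hτ
  have hu0 : 0 < ‖ee z0‖ := norm_pos_iff.mpr (ee_ne_zero z0)
  have ha : 0 < ‖ee z0‖ / 2 := half_pos hu0
  have hb : 0 < 2 * ‖ee z0‖ := by linarith
  have hc : 0 < 1 / (2 * (2 * ‖ee z0‖)) := by positivity
  obtain ⟨M, hM⟩ := eventually_atTop.mp
    ((eventually_pow_le hq (half_pos ha)).and (eventually_pow_le hq hc))
  have hM' : ∀ m, M ≤ m → 2 * ‖ee τ‖ ^ m ≤ ‖ee z0‖ / 2 ∧
      2 * (2 * ‖ee z0‖ * ‖ee τ‖ ^ m) ≤ 1 := by
    intro m hm
    obtain ⟨h1, h2⟩ := hM m hm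
    refine ⟨by linarith, ?_⟩
    have h3 : 2 * (2 * ‖ee z0‖) * ‖ee τ‖ ^ m ≤ 2 * (2 * ‖ee z0‖) * (1 / (2 * (2 * ‖ee z0‖))) :=
      mul_le_mul_of_nonneg_left h2 (by positivity)
    have h4 : 2 * (2 * ‖ee z0‖) * (1 / (2 * (2 * ‖ee z0‖))) = 1 := by
      field_simp
    linarith
  have htail := differentiableOn_tail hq ha hb hM'
  have hmem : {z : ℂ | ‖ee z0‖ / 2 < ‖ee z‖ ∧ ‖ee z‖ < 2 * ‖ee z0‖} ∈ 𝓝 z0 := by
    have hopen : IsOpen {z : ℂ | ‖ee z0‖ / 2 < ‖ee z‖ ∧ ‖ee z‖ < 2 * ‖ee z0‖} :=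
      (isOpen_lt continuous_const continuous_ee.norm).inter
        (isOpen_lt continuous_ee.norm continuous_const)
    exact hopen.mem_nhds ⟨by linarith, by linarith⟩
  have hsplit : (fun z => ∑' m, kTerm (ee z) (ee τ) m) =
      fun z => (∑ m ∈ Finset.range M, kTerm (ee z) (ee τ) m) +
        ∑' m, kTerm (ee z) (ee τ) (m + M) := by
    funext z
    exact ((summable_kTerm hq (ee_ne_zero z)).sum_add_tsum_nat_add M).symm
  rw [hsplit]
  refine DifferentiableAt.add ?_ (htail.differentiableAt hmem)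
  exact DifferentiableAt.fun_sum fun m _ => differentiableAt_kTerm m (hreg m).1 (hreg m).2

theorem differentiableAt_cTerm_ee {z0 : ℂ} (h : ee z0 ≠ 1) :
    DifferentiableAt ℂ (fun z => cTerm (ee z)) z0 := by
  unfold cTerm
  refine ((differentiable_ee z0).add (differentiableAt_const _)).div
    ((differentiableAt_const _).mul ((differentiable_ee z0).sub (differentiableAt_const _))) ?_
  exact mul_ne_zero two_ne_zero (sub_ne_zero.mpr h)

/-- **holomorphy of `kron` in `z` off the poles** -/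
theorem differentiableAt_kron {τ z0 : ℂ} (hτ : 0 < τ.im) (h1 : ee z0 ≠ 1)
    (hreg : Reg (ee z0) (ee τ)) : DifferentiableAt ℂ (fun z => kron z τ) z0 := by
  unfold kron kronE
  exact (differentiableAt_cTerm_ee h1).add (differentiableAt_kTermSum hτ hreg)

/-! ### The residue at `z = 0` -/

theorem two_pi_I_ne_zero : (2 * (Real.pi : ℂ) * I) ≠ 0 := by
  simp [Real.pi_ne_zero, I_ne_zero]

/-- `z / (e z - 1) → 1 / (2 π i)` at `0` -/
theorem tendsto_div_ee_sub_one :
    Tendsto (fun z : ℂ => z / (ee z - 1)) (𝓝[≠] 0) (𝓝 (1 / (2 * Real.pi * I))) := by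
  have h1 : HasDerivAt ee (2 * Real.pi * I) 0 := by
    have h := hasDerivAt_ee 0
    rw [ee_zero, mul_one] at h
    exact h
  have h2 := h1.tendsto_slope
  have h3 : Tendsto (fun z : ℂ => (slope ee 0 z)⁻¹) (𝓝[≠] 0) (𝓝 (2 * Real.pi * I)⁻¹) :=
    h2.inv₀ two_pi_I_ne_zero
  rw [one_div]
  refine h3.congr fun z => ?_
  rw [slope_def_field, ee_zero, sub_zero, inv_div]

/-- `z * cTerm (e z) → 1 / (2 π i)` at `0` -/
theorem tendsto_mul_cTerm_ee :
    Tendsto (fun z : ℂ => z * cTerm (ee z)) (𝓝[≠] 0) (𝓝 (1 / (2 * Real.pi * I))) := by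
  have h1 : Tendsto (fun z : ℂ => (ee z + 1) / 2) (𝓝[≠] 0) (𝓝 1) := by
    have h : Tendsto (fun z : ℂ => (ee z + 1) / 2) (𝓝 0) (𝓝 ((ee 0 + 1) / 2)) :=
      ((continuous_ee.add continuous_const).div_const 2).tendsto 0
    rw [ee_zero] at h
    norm_num at h
    exact h.mono_left nhdsWithin_le_nhds
  have h2 := h1.mul tendsto_div_ee_sub_one
  rw [one_mul] at h2
  refine h2.congr fun z => ?_
  unfold cTerm
  by_cases h : ee z - 1 = 0
  · rw [h, mul_zero, div_zero, div_zero, mul_zero, mul_zero]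
  · field_simp

/-- **the residue of `kron` at `z = 0`**: `z * kron z τ → 1 / (2 π i)` -/
theorem tendsto_mul_kron {τ : ℂ} (hτ : 0 < τ.im) :
    Tendsto (fun z : ℂ => z * kron z τ) (𝓝[≠] 0) (𝓝 (1 / (2 * Real.pi * I))) := by
  have hq := norm_ee_lt_one hτ
  have hreg : Reg (ee 0) (ee τ) := by
    intro m
    rw [ee_zero, one_mul]
    have h1 : ‖ee τ ^ (m + 1)‖ < 1 := by
      rw [norm_pow]
      exact pow_lt_one₀ (norm_nonneg _) hq (by omega)
    constructor
    · intro h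
      rw [← h, norm_one] at h1
      exact lt_irrefl _ h1
    · intro h
      rw [h, norm_one] at h1
      exact lt_irrefl _ h1
  have hT := (differentiableAt_kTermSum hτ hreg).continuousAt
  have h1 : Tendsto (fun z : ℂ => z * ∑' m, kTerm (ee z) (ee τ) m) (𝓝[≠] 0) (𝓝 0) := by
    have h2 : Tendsto (fun z : ℂ => z * ∑' m, kTerm (ee z) (ee τ) m) (𝓝 0)
        (𝓝 (0 * ∑' m, kTerm (ee 0) (ee τ) m)) := (continuousAt_id.mul hT).tendsto
    rw [zero_mul] at h2
    exact h2.mono_left nhdsWithin_le_nhds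
  have h3 := tendsto_mul_cTerm_ee.add h1
  rw [add_zero] at h3
  refine h3.congr fun z => ?_
  unfold kron kronE
  ring

end Fermat.Agent.S48.Eis1.KronZ
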