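import Mathlib
import Fermat.Agent.S48.Eis1.KronZ
import Fermat.Agent.S48.Eis1.Elliptic

/-!
# PROJECT D (S48), brick B7a (helper16): the transformation of the Kronecker–Eisenstein function
under `τ ↦ -1 / τ`

`kron (z / τ) (-1 / τ) = τ * kron z τ + z` for `z` off the lattice `ℤ + ℤ τ`: the difference is an
elliptic function without poles, hence constant (Liouville), and odd, hence `0`.
-/

set_option autoImplicit false
set_option linter.unusedVariables false

noncomputable section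

namespace Fermat.Agent.S48.Eis1.KronS

open Filter Topology Complex Fermat.Agent.S48.Eis1.Kron Fermat.Agent.S48.Eis1.KronZ

/-- `z` is not in the lattice `ℤ + ℤ τ` -/
def NotLat (z τ : ℂ) : Prop := ∀ m n : ℤ, z ≠ m + n * τ

theorem NotLat.neg {z τ : ℂ} (h : NotLat z τ) : NotLat (-z) τ := by
  intro m n hz
  refine h (-m) (-n) ?_
  have : z = -(-z) := (neg_neg z).symm
  rw [this, hz]
  push_cast
  ring

theorem NotLat.add_int {z τ : ℂ} (h : NotLat z τ) (a b : ℤ) : NotLat (z + (a + b * τ)) τ := by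
  intro m n hz
  refine h (m - a) (n - b) ?_
  have : z = z + (a + b * τ) - (a + b * τ) := by ring
  rw [this, hz]
  push_cast
  ring

theorem NotLat.add_one {z τ : ℂ} (h : NotLat z τ) : NotLat (z + 1) τ := by
  have := h.add_int 1 0
  simpa using this

theorem NotLat.add_tau {z τ : ℂ} (h : NotLat z τ) : NotLat (z + τ) τ := by
  have := h.add_int 0 1
  simpa using this

theorem NotLat.sub_tau {z τ : ℂ} (h : NotLat z τ) : NotLat (z - τ) τ := by
  have := h.add_int 0 (-1)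
  simpa [sub_eq_add_neg] using this

theorem NotLat.not_int {z τ : ℂ} (h : NotLat z τ) (n : ℤ) : z ≠ n := by
  intro hz
  refine h n 0 ?_
  rw [hz]
  simp

theorem im_neg_inv_pos {τ : ℂ} (hτ : 0 < τ.im) : 0 < (-τ⁻¹).im := by
  rw [Complex.neg_im, Complex.inv_im, neg_div, neg_neg]
  have h0 : τ ≠ 0 := by
    intro h
    rw [h] at hτ
    simp at hτ
  exact div_pos hτ (Complex.normSq_pos.mpr h0)

theorem ne_zero_of_im_pos {τ : ℂ} (hτ : 0 < τ.im) : τ ≠ 0 := by
  intro h
  rw [h] at hτ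
  simp at hτ

theorem NotLat.div {z τ : ℂ} (hτ : 0 < τ.im) (h : NotLat z τ) : NotLat (z / τ) (-τ⁻¹) := by
  have h0 := ne_zero_of_im_pos hτ
  intro m n hz
  refine h (-n) m ?_
  have h1 : z = z / τ * τ := by field_simp
  rw [h1, hz]
  push_cast
  field_simp
  ring

theorem ee_pow (τ : ℂ) (k : ℕ) : ee τ ^ k = ee (k * τ) := by
  induction k with
  | zero => simp [ee_zero]
  | succ k ih =>
    rw [pow_succ, ih, ← ee_add]
    congr 1
    push_cast
    ring

theorem ee_ne_one_of_notLat {z τ : ℂ} (h : NotLat z τ) : ee z ≠ 1 := by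
  intro h1
  obtain ⟨n, hn⟩ := ee_eq_one_iff.mp h1
  exact h.not_int n hn

theorem reg_of_notLat {z τ : ℂ} (h : NotLat z τ) : Reg (ee z) (ee τ) := by
  intro m
  constructor
  · intro h1
    rw [ee_pow] at h1
    have h2 : ee (z - ((m + 1 : ℕ) : ℂ) * τ) = 1 := by
      rw [sub_eq_add_neg, ee_add, ee_neg, h1, mul_inv_cancel₀ (ee_ne_zero _)]
    obtain ⟨n, hn⟩ := ee_eq_one_iff.mp h2
    refine h n ((m + 1 : ℕ) : ℤ) ?_
    have : z = (z - ((m + 1 : ℕ) : ℂ) * τ) + ((m + 1 : ℕ) : ℂ) * τ := by ring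
    rw [this, hn]
    push_cast
    ring
  · intro h1
    rw [ee_pow, ← ee_add] at h1
    obtain ⟨n, hn⟩ := ee_eq_one_iff.mp h1
    refine h n (-((m + 1 : ℕ) : ℤ)) ?_
    have : z = (z + ((m + 1 : ℕ) : ℂ) * τ) - ((m + 1 : ℕ) : ℂ) * τ := by ring
    rw [this, hn]
    push_cast
    ring

theorem differentiableAt_kron_of_notLat {τ z0 : ℂ} (hτ : 0 < τ.im) (h : NotLat z0 τ) :
    DifferentiableAt ℂ (fun z => kron z τ) z0 :=
  differentiableAt_kron hτ (ee_ne_one_of_notLat h) (reg_of_notLat h)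

theorem kron_add_tau_of_notLat {τ z : ℂ} (hτ : 0 < τ.im) (h : NotLat z τ) :
    kron (z + τ) τ = kron z τ - 1 :=
  kron_add_tau hτ (fun n => h.not_int n) (fun n => h.add_tau.not_int n)

theorem kron_sub_tau_of_notLat {τ z : ℂ} (hτ : 0 < τ.im) (h : NotLat z τ) :
    kron (z - τ) τ = kron z τ + 1 := by
  have h1 := kron_add_tau_of_notLat hτ h.sub_tau
  rw [sub_add_cancel] at h1
  rw [h1]
  ring

/-- the period pair `(1, τ)` -/
def pp (τ : ℂ) (hτ : 0 < τ.im) : PeriodPair where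
  ω₁ := 1
  ω₂ := τ
  indep := by
    rw [LinearIndependent.pair_iff]
    intro s t h
    have him := congrArg Complex.im h
    have hre := congrArg Complex.re h
    simp at him hre
    have ht : t = 0 := by
      rcases him with h1 | h1
      · exact h1
      · exact absurd h1 (ne_of_gt hτ)
    rw [ht] at hre
    simp at hre
    exact ⟨hre, ht⟩

theorem pp_ω₁ (τ : ℂ) (hτ : 0 < τ.im) : (pp τ hτ).ω₁ = 1 := rfl

theorem pp_ω₂ (τ : ℂ) (hτ : 0 < τ.im) : (pp τ hτ).ω₂ = τ := rfl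

theorem notMem_lattice_iff {τ : ℂ} (hτ : 0 < τ.im) {z : ℂ} :
    z ∉ (pp τ hτ).lattice ↔ NotLat z τ := by
  rw [PeriodPair.mem_lattice]
  constructor
  · intro h m n hz
    exact h ⟨m, n, by rw [hz, pp_ω₁, pp_ω₂, mul_one]⟩
  · rintro h ⟨m, n, hz⟩
    refine h m n ?_
    rw [← hz, pp_ω₁, pp_ω₂, mul_one]

/-- the difference of the two sides of the transformation formula -/
def dS (τ z : ℂ) : ℂ := kron (z / τ) (-τ⁻¹) - τ * kron z τ - z

theorem dS_neg (τ z : ℂ) : dS τ (-z) = - dS τ z := by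
  unfold dS
  rw [neg_div, kron_neg, kron_neg]
  ring

theorem dS_add_one {τ z : ℂ} (hτ : 0 < τ.im) (h : NotLat z τ) : dS τ (z + 1) = dS τ z := by
  have h0 := ne_zero_of_im_pos hτ
  unfold dS
  have h1 : (z + 1) / τ = z / τ - (-τ⁻¹) := by
    field_simp
    ring
  rw [h1, kron_sub_tau_of_notLat (im_neg_inv_pos hτ) (h.div hτ), kron_add_one]
  ring

theorem dS_add_tau {τ z : ℂ} (hτ : 0 < τ.im) (h : NotLat z τ) : dS τ (z + τ) = dS τ z := by
  have h0 := ne_zero_of_im_pos hτ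
  unfold dS
  have h1 : (z + τ) / τ = z / τ + 1 := by
    field_simp
  rw [h1, kron_add_one, kron_add_tau_of_notLat hτ h]
  ring

theorem differentiableAt_dS {τ z0 : ℂ} (hτ : 0 < τ.im) (h : NotLat z0 τ) :
    DifferentiableAt ℂ (dS τ) z0 := by
  unfold dS
  have h1 : DifferentiableAt ℂ (fun z => kron (z / τ) (-τ⁻¹)) z0 := by
    have h2 := differentiableAt_kron_of_notLat (im_neg_inv_pos hτ) (h.div hτ)
    have h3 : DifferentiableAt ℂ (fun z : ℂ => z / τ) z0 := differentiableAt_id.div_const τ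
    exact DifferentiableAt.comp z0 h2 h3
  exact (h1.sub ((differentiableAt_kron_of_notLat hτ h).const_mul τ)).sub differentiableAt_id

theorem tendsto_mul_dS {τ : ℂ} (hτ : 0 < τ.im) :
    Tendsto (fun z => z * dS τ z) (𝓝[≠] 0) (𝓝 0) := by
  have h0 := ne_zero_of_im_pos hτ
  have hdiv : Tendsto (fun z : ℂ => z / τ) (𝓝[≠] 0) (𝓝[≠] 0) := by
    rw [tendsto_nhdsWithin_iff]
    constructor
    · have h : Tendsto (fun z : ℂ => z / τ) (𝓝 0) (𝓝 (0 / τ)) :=
        (continuous_id.div_const τ).tendsto 0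
      rw [zero_div] at h
      exact h.mono_left nhdsWithin_le_nhds
    · filter_upwards [self_mem_nhdsWithin] with z hz
      exact div_ne_zero hz h0
  have h1 : Tendsto (fun z : ℂ => τ * (z / τ * kron (z / τ) (-τ⁻¹))) (𝓝[≠] 0)
      (𝓝 (τ * (1 / (2 * Real.pi * I)))) :=
    ((tendsto_mul_kron (im_neg_inv_pos hτ)).comp hdiv).const_mul τ
  have h2 : Tendsto (fun z : ℂ => τ * (z * kron z τ)) (𝓝[≠] 0)
      (𝓝 (τ * (1 / (2 * Real.pi * I)))) := (tendsto_mul_kron hτ).const_mul τ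
  have h3 : Tendsto (fun z : ℂ => z * z) (𝓝[≠] 0) (𝓝 0) := by
    have h : Tendsto (fun z : ℂ => z * z) (𝓝 0) (𝓝 (0 * 0)) :=
      (continuous_id.mul continuous_id).tendsto 0
    rw [zero_mul] at h
    exact h.mono_left nhdsWithin_le_nhds
  have h4 := (h1.sub h2).sub h3
  rw [sub_self, sub_zero] at h4
  refine h4.congr fun z => ?_
  unfold dS
  field_simp

/-- **the transformation of the Kronecker–Eisenstein function under `τ ↦ -1 / τ`** -/
theorem kron_S {τ z : ℂ} (hτ : 0 < τ.im) (hz : NotLat z τ) :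
    kron (z / τ) (-τ⁻¹) = τ * kron z τ + z := by
  obtain ⟨c, hc⟩ := Fermat.Agent.S48.Eis1.Elliptic.eq_const_of_periodic (pp τ hτ) (dS τ)
    (fun w hw => differentiableAt_dS hτ ((notMem_lattice_iff hτ).mp hw))
    (fun w hw => dS_add_one hτ ((notMem_lattice_iff hτ).mp hw))
    (fun w hw => dS_add_tau hτ ((notMem_lattice_iff hτ).mp hw))
    (tendsto_mul_dS hτ)
  have h1 := hc z ((notMem_lattice_iff hτ).mpr hz)
  have h2 := hc (-z) ((notMem_lattice_iff hτ).mpr hz.neg)
  rw [dS_neg, h1] at h2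
  have hc0 : c = 0 := by
    have h3 : c + c = 0 := by
      nth_rewrite 1 [← h2]
      ring
    have h4 : (2 : ℂ) * c = 0 := by rw [two_mul]; exact h3
    rcases mul_eq_zero.mp h4 with h5 | h5
    · exact absurd h5 two_ne_zero
    · exact h5
  rw [hc0] at h1
  unfold dS at h1
  have h5 : kron (z / τ) (-τ⁻¹) = kron (z / τ) (-τ⁻¹) - τ * kron z τ - z + (τ * kron z τ + z) := by
    ring
  rw [h5, h1, zero_add]

end Fermat.Agent.S48.Eis1.KronS
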