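import Mathlib
import Fermat.Agent.S48.Eis1.KronS

/-!
# PROJECT D (S48), brick B7a (helper16): the transformation of the Kronecker–Eisenstein function
under `SL(2, ℤ)`

For `γ = (a b; c d) ∈ SL(2, ℤ)`, `Im τ > 0` and `z ∉ ℤ + ℤ τ`:
`kron (z / (c τ + d)) ((a τ + b) / (c τ + d)) = (c τ + d) * kron z τ + c * z`
(induction on the generators `S`, `T`).
-/

set_option autoImplicit false
set_option linter.unusedVariables false

noncomputable section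

namespace Fermat.Agent.S48.Eis1.KronSL

open Filter Topology Complex Fermat.Agent.S48.Eis1.Kron Fermat.Agent.S48.Eis1.KronZ
open Fermat.Agent.S48.Eis1.KronS
open scoped MatrixGroups

/-- the factor of automorphy `c τ + d` -/
def jj (γ : SL(2, ℤ)) (τ : ℂ) : ℂ := (γ 1 0 : ℂ) * τ + (γ 1 1 : ℂ)

/-- the Möbius transformation `(a τ + b) / (c τ + d)` -/
def mob (γ : SL(2, ℤ)) (τ : ℂ) : ℂ := ((γ 0 0 : ℂ) * τ + (γ 0 1 : ℂ)) / jj γ τ

theorem det_eq (γ : SL(2, ℤ)) : (γ 0 0 : ℂ) * (γ 1 1 : ℂ) - (γ 0 1 : ℂ) * (γ 1 0 : ℂ) = 1 := by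
  have h := γ.det_coe
  rw [Matrix.det_fin_two] at h
  exact_mod_cast h

theorem jj_ne_zero (γ : SL(2, ℤ)) {τ : ℂ} (hτ : 0 < τ.im) : jj γ τ ≠ 0 := by
  intro h
  unfold jj at h
  have him := congrArg Complex.im h
  simp at him
  have hc : (γ 1 0 : ℝ) = 0 := by
    rcases him with h1 | h1
    · exact_mod_cast h1
    · exact absurd h1 (ne_of_gt hτ)
  have hc' : (γ 1 0 : ℂ) = 0 := by exact_mod_cast hc
  rw [hc', zero_mul, zero_add] at h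
  have hd := det_eq γ
  rw [hc', h] at hd
  simp at hd

theorem mob_eq_smul (γ : SL(2, ℤ)) {τ : ℂ} (hτ : 0 < τ.im) :
    mob γ τ = ((γ • (⟨τ, hτ⟩ : UpperHalfPlane) : UpperHalfPlane) : ℂ) := by
  rw [UpperHalfPlane.coe_specialLinearGroup_apply]
  unfold mob jj
  simp

theorem im_mob_pos (γ : SL(2, ℤ)) {τ : ℂ} (hτ : 0 < τ.im) : 0 < (mob γ τ).im := by
  rw [mob_eq_smul γ hτ]
  exact UpperHalfPlane.im_pos _

theorem jj_mul (γ₁ γ₂ : SL(2, ℤ)) {τ : ℂ} (hτ : 0 < τ.im) :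
    jj (γ₁ * γ₂) τ = jj γ₁ (mob γ₂ τ) * jj γ₂ τ := by
  have h2 := jj_ne_zero γ₂ hτ
  unfold mob
  unfold jj at h2 ⊢
  rw [Matrix.SpecialLinearGroup.coe_mul, Matrix.mul_apply, Matrix.mul_apply, Fin.sum_univ_two,
    Fin.sum_univ_two]
  push_cast
  field_simp
  ring

theorem mob_mul (γ₁ γ₂ : SL(2, ℤ)) {τ : ℂ} (hτ : 0 < τ.im) :
    mob (γ₁ * γ₂) τ = mob γ₁ (mob γ₂ τ) := by
  have h2 := jj_ne_zero γ₂ hτ
  have h1 := jj_ne_zero γ₁ (im_mob_pos γ₂ hτ)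
  have h12 := jj_ne_zero (γ₁ * γ₂) hτ
  have hj := jj_mul γ₁ γ₂ hτ
  rw [mob, mob, div_eq_div_iff h12 h1, hj]
  unfold mob
  unfold jj at h2 ⊢
  rw [Matrix.SpecialLinearGroup.coe_mul, Matrix.mul_apply, Matrix.mul_apply, Fin.sum_univ_two,
    Fin.sum_univ_two]
  push_cast
  field_simp
  ring

theorem NotLat.mob (γ : SL(2, ℤ)) {τ z : ℂ} (hτ : 0 < τ.im) (h : NotLat z τ) :
    NotLat (z / jj γ τ) (mob γ τ) := by
  have hj := jj_ne_zero γ hτ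
  intro m n hz
  refine h (m * γ 1 1 + n * γ 0 1) (m * γ 1 0 + n * γ 0 0) ?_
  have h1 : z = z / jj γ τ * jj γ τ := by field_simp
  rw [h1, hz]
  unfold KronSL.mob
  rw [add_mul, mul_assoc, div_mul_cancel₀ _ hj]
  unfold jj
  push_cast
  ring

/-- the statement for one matrix -/
def Law (γ : SL(2, ℤ)) : Prop :=
  ∀ τ z : ℂ, 0 < τ.im → NotLat z τ →
    kron (z / jj γ τ) (mob γ τ) = jj γ τ * kron z τ + (γ 1 0 : ℂ) * z

theorem law_one : Law 1 := by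
  intro τ z hτ hz
  simp [jj, mob]

theorem law_S : Law ModularGroup.S := by
  intro τ z hτ hz
  have h0 := ne_zero_of_im_pos hτ
  have h1 : jj ModularGroup.S τ = τ := by simp [jj, ModularGroup.S]
  have h2 : mob ModularGroup.S τ = -τ⁻¹ := by
    rw [mob, h1]
    simp [ModularGroup.S]
    field_simp
  rw [h1, h2, kron_S hτ hz]
  simp [ModularGroup.S]

theorem law_T : Law ModularGroup.T := by
  intro τ z hτ hz
  have h1 : jj ModularGroup.T τ = 1 := by simp [jj, ModularGroup.T]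
  have h2 : mob ModularGroup.T τ = τ + 1 := by
    rw [mob, h1]
    simp [ModularGroup.T]
  rw [h1, h2]
  have h3 : kron z (τ + 1) = kron z τ := by
    unfold kron
    rw [ee_add_one]
  simp [ModularGroup.T, h3]

theorem law_mul {γ₁ γ₂ : SL(2, ℤ)} (h1 : Law γ₁) (h2 : Law γ₂) : Law (γ₁ * γ₂) := by
  intro τ z hτ hz
  have hj2 := jj_ne_zero γ₂ hτ
  have hτ2 := im_mob_pos γ₂ hτ
  have hz2 := NotLat.mob γ₂ hτ hz
  have e1 := h1 (mob γ₂ τ) (z / jj γ₂ τ) hτ2 hz2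
  have e2 := h2 τ z hτ hz
  have hjm := jj_mul γ₁ γ₂ hτ
  have hzz : z / jj (γ₁ * γ₂) τ = z / jj γ₂ τ / jj γ₁ (mob γ₂ τ) := by
    rw [hjm, div_div, mul_comm]
  rw [hzz, mob_mul γ₁ γ₂ hτ, e1, e2, hjm]
  -- the cocycle of the linear term
  have hc : ((γ₁ * γ₂) 1 0 : ℂ) =
      (γ₁ 1 0 : ℂ) * (γ₂ 0 0 : ℂ) + (γ₁ 1 1 : ℂ) * (γ₂ 1 0 : ℂ) := by
    rw [Matrix.SpecialLinearGroup.coe_mul, Matrix.mul_apply, Fin.sum_univ_two]
    push_cast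
    ring
  rw [hc]
  have hdet := det_eq γ₂
  have hj1 : jj γ₁ (mob γ₂ τ) =
      (γ₁ 1 0 : ℂ) * (((γ₂ 0 0 : ℂ) * τ + (γ₂ 0 1 : ℂ)) / jj γ₂ τ) + (γ₁ 1 1 : ℂ) := rfl
  rw [hj1]
  have hj2' : jj γ₂ τ = (γ₂ 1 0 : ℂ) * τ + (γ₂ 1 1 : ℂ) := rfl
  field_simp
  rw [hj2']
  linear_combination (-(γ₁ 1 0 : ℂ) * z) * hdet

theorem law_inv {γ : SL(2, ℤ)} (h : Law γ) : Law γ⁻¹ := by
  intro τ z hτ hz
  have hji := jj_ne_zero γ⁻¹ hτ
  have hτi := im_mob_pos γ⁻¹ hτ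
  have hzi := NotLat.mob γ⁻¹ hτ hz
  have e1 := h (mob γ⁻¹ τ) (z / jj γ⁻¹ τ) hτi hzi
  have hjm := jj_mul γ γ⁻¹ hτ
  have hmm := mob_mul γ γ⁻¹ hτ
  rw [mul_inv_cancel] at hjm hmm
  have hj1 : jj (1 : SL(2, ℤ)) τ = 1 := by simp [jj]
  have hm1 : mob (1 : SL(2, ℤ)) τ = τ := by simp [mob, jj]
  rw [hj1] at hjm
  rw [hm1] at hmm
  have hjγ : jj γ (mob γ⁻¹ τ) ≠ 0 := jj_ne_zero γ hτi
  have hzz : z / jj γ⁻¹ τ / jj γ (mob γ⁻¹ τ) = z := by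
    rw [div_div, mul_comm, ← hjm, div_one]
  rw [hzz, ← hmm] at e1
  have hc : ((γ⁻¹ : SL(2, ℤ)) 1 0 : ℂ) = -(γ 1 0 : ℂ) := by
    rw [Matrix.SpecialLinearGroup.SL2_inv_expl]
    simp
  rw [hc]
  have e2 : kron (z / jj γ⁻¹ τ) (mob γ⁻¹ τ) =
      (kron z τ - (γ 1 0 : ℂ) * (z / jj γ⁻¹ τ)) / jj γ (mob γ⁻¹ τ) := by
    rw [e1]
    field_simp
    ring
  rw [e2]
  have hjj : jj γ (mob γ⁻¹ τ) = (jj γ⁻¹ τ)⁻¹ := by
    exact eq_inv_of_mul_eq_one_left hjm.symm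
  rw [hjj]
  field_simp
  ring

/-- **the transformation of the Kronecker–Eisenstein function under `SL(2, ℤ)`** -/
theorem kron_SL (γ : SL(2, ℤ)) {τ z : ℂ} (hτ : 0 < τ.im) (hz : NotLat z τ) :
    kron (z / jj γ τ) (mob γ τ) = jj γ τ * kron z τ + (γ 1 0 : ℂ) * z := by
  have hmem : γ ∈ Subgroup.closure ({ModularGroup.S, ModularGroup.T} : Set SL(2, ℤ)) := by
    rw [_root_.SpecialLinearGroup.SL2Z_generators]
    exact Subgroup.mem_top γ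
  have hlaw : Law γ := by
    refine Subgroup.closure_induction (p := fun g _ => Law g) ?_ law_one ?_ ?_ hmem
    · intro x hx
      rcases hx with rfl | rfl
      · exact law_S
      · exact law_T
    · intro x y _ _ hx hy
      exact law_mul hx hy
    · intro x _ hx
      exact law_inv hx
  exact hlaw τ z hτ hz

end Fermat.Agent.S48.Eis1.KronSL
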