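import Mathlib
import Fermat.Agent.S48.Eis1.KronSL

/-!
# PROJECT D (S48), brick B7a (helper16): the values of the Kronecker–Eisenstein function at the
points of order `N`

`tors N r s τ = kron ((r τ + s) / N) τ + r / N` for `(r, s) ∈ ℤ²` not `≡ (0, 0) mod N`:

* `tors_mob` : `tors N r s (γ τ) = (c τ + d) * tors N (r a + s c) (r b + s d) τ` for `γ ∈ SL(2, ℤ)`;
* `tors_add_right`, `tors_add_left` : `tors N r s` depends only on `(r, s) mod N`.
-/

set_option autoImplicit false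
set_option linter.unusedVariables false

noncomputable section

namespace Fermat.Agent.S48.Eis1.KronTors

open Filter Topology Complex Fermat.Agent.S48.Eis1.Kron Fermat.Agent.S48.Eis1.KronZ
open Fermat.Agent.S48.Eis1.KronS Fermat.Agent.S48.Eis1.KronSL
open scoped MatrixGroups

/-- the value of the Kronecker–Eisenstein function at the point `(r τ + s) / N` of order `N`,
made periodic -/
def tors (N : ℕ) (r s : ℤ) (τ : ℂ) : ℂ := kron (((r : ℂ) * τ + s) / N) τ + (r : ℂ) / N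

/-- the pair `(r, s)` is not `≡ (0, 0) mod N` -/
def Prim (N : ℕ) (r s : ℤ) : Prop := ¬ ((N : ℤ) ∣ r ∧ (N : ℤ) ∣ s)

theorem eq_of_add_mul_eq {τ : ℂ} (hτ : 0 < τ.im) {a b c d : ℝ}
    (h : (a : ℂ) + (b : ℂ) * τ = (c : ℂ) + (d : ℂ) * τ) : a = c ∧ b = d := by
  have him := congrArg Complex.im h
  have hre := congrArg Complex.re h
  simp at him hre
  have hbd : b = d := by
    rcases him with h1 | h1
    · exact h1
    · exact absurd h1 (ne_of_gt hτ)
  rw [hbd] at hre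
  exact ⟨by linarith, hbd⟩

theorem notLat_tors {N : ℕ} (hN : N ≠ 0) {r s : ℤ} (h : Prim N r s) {τ : ℂ} (hτ : 0 < τ.im) :
    NotLat (((r : ℂ) * τ + s) / N) τ := by
  intro m n hz
  apply h
  have hN' : (N : ℂ) ≠ 0 := by exact_mod_cast hN
  have h1 : ((s : ℝ) : ℂ) + ((r : ℝ) : ℂ) * τ =
      (((N : ℝ) * (m : ℝ) : ℝ) : ℂ) + (((N : ℝ) * (n : ℝ) : ℝ) : ℂ) * τ := by
    have h2 : (r : ℂ) * τ + s = ((m : ℂ) + n * τ) * N := by
      rw [← hz]
      field_simp
    push_cast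
    linear_combination h2
  obtain ⟨h3, h4⟩ := eq_of_add_mul_eq hτ h1
  constructor
  · refine ⟨n, ?_⟩
    exact_mod_cast h4
  · refine ⟨m, ?_⟩
    exact_mod_cast h3

theorem Prim.mul {N : ℕ} {r s : ℤ} (h : Prim N r s) (γ : SL(2, ℤ)) :
    Prim N (r * γ 0 0 + s * γ 1 0) (r * γ 0 1 + s * γ 1 1) := by
  intro h1
  apply h
  obtain ⟨h2, h3⟩ := h1
  have hdet : γ 0 0 * γ 1 1 - γ 0 1 * γ 1 0 = 1 := by
    have := γ.det_coe
    rwa [Matrix.det_fin_two] at this
  constructor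
  · have h4 : r = (r * γ 0 0 + s * γ 1 0) * γ 1 1 - (r * γ 0 1 + s * γ 1 1) * γ 1 0 := by
      linear_combination (-r) * hdet
    rw [h4]
    exact dvd_sub (Dvd.dvd.mul_right h2 _) (Dvd.dvd.mul_right h3 _)
  · have h4 : s = (r * γ 0 1 + s * γ 1 1) * γ 0 0 - (r * γ 0 0 + s * γ 1 0) * γ 0 1 := by
      linear_combination (-s) * hdet
    rw [h4]
    exact dvd_sub (Dvd.dvd.mul_right h3 _) (Dvd.dvd.mul_right h2 _)

/-- **the transformation of the torsion values under `SL(2, ℤ)`** -/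
theorem tors_mob {N : ℕ} (hN : N ≠ 0) {r s : ℤ} (h : Prim N r s) (γ : SL(2, ℤ)) {τ : ℂ}
    (hτ : 0 < τ.im) :
    tors N r s (mob γ τ) =
      jj γ τ * tors N (r * γ 0 0 + s * γ 1 0) (r * γ 0 1 + s * γ 1 1) τ := by
  have hN' : (N : ℂ) ≠ 0 := by exact_mod_cast hN
  have hj := jj_ne_zero γ hτ
  have hz := notLat_tors hN (h.mul γ) hτ
  have hlaw := kron_SL γ hτ hz
  have hzz : ((((r * γ 0 0 + s * γ 1 0 : ℤ) : ℂ)) * τ + ((r * γ 0 1 + s * γ 1 1 : ℤ) : ℂ)) / N /
      jj γ τ = ((r : ℂ) * mob γ τ + s) / N := by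
    unfold mob
    have hj' : jj γ τ = (γ 1 0 : ℂ) * τ + (γ 1 1 : ℂ) := rfl
    field_simp
    rw [hj']
    push_cast
    ring
  rw [hzz] at hlaw
  unfold tors
  rw [hlaw]
  have hdet := det_eq γ
  have hj' : jj γ τ = (γ 1 0 : ℂ) * τ + (γ 1 1 : ℂ) := rfl
  rw [hj']
  push_cast
  field_simp
  linear_combination (-(r : ℂ)) * hdet

theorem tors_add_right (N : ℕ) (hN : N ≠ 0) (r s : ℤ) (τ : ℂ) :
    tors N r (s + N) τ = tors N r s τ := by
  have hN' : (N : ℂ) ≠ 0 := by exact_mod_cast hN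
  unfold tors
  have h1 : ((r : ℂ) * τ + ((s + N : ℤ) : ℂ)) / N = ((r : ℂ) * τ + s) / N + 1 := by
    push_cast
    field_simp
    ring
  rw [h1, kron_add_one]

theorem tors_add_left {N : ℕ} (hN : N ≠ 0) {r s : ℤ} (h : Prim N r s) {τ : ℂ} (hτ : 0 < τ.im) :
    tors N (r + N) s τ = tors N r s τ := by
  have hN' : (N : ℂ) ≠ 0 := by exact_mod_cast hN
  unfold tors
  have h1 : (((r + N : ℤ) : ℂ) * τ + s) / N = ((r : ℂ) * τ + s) / N + τ := by
    push_cast
    field_simp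
    ring
  rw [h1, kron_add_tau_of_notLat hτ (notLat_tors hN h hτ)]
  push_cast
  field_simp
  ring

theorem Prim.add_right {N : ℕ} {r s : ℤ} (h : Prim N r s) (k : ℤ) : Prim N r (s + k * N) := by
  intro h1
  apply h
  refine ⟨h1.1, ?_⟩
  have := dvd_sub h1.2 (Dvd.intro_left k rfl : (N : ℤ) ∣ k * N)
  simpa using this

theorem Prim.add_left {N : ℕ} {r s : ℤ} (h : Prim N r s) (k : ℤ) : Prim N (r + k * N) s := by
  intro h1
  apply h
  refine ⟨?_, h1.2⟩
  have := dvd_sub h1.1 (Dvd.intro_left k rfl : (N : ℤ) ∣ k * N)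
  simpa using this

theorem tors_add_mul_right (N : ℕ) (hN : N ≠ 0) (r s : ℤ) (τ : ℂ) (k : ℤ) :
    tors N r (s + k * N) τ = tors N r s τ := by
  induction k using Int.induction_on with
  | zero => simp
  | succ k ih =>
    have : s + ((k : ℤ) + 1) * N = (s + k * N) + N := by ring
    rw [this, tors_add_right N hN, ih]
  | pred k ih =>
    have h1 := tors_add_right N hN r (s + (-(k : ℤ) - 1) * N) τ
    have : s + (-(k : ℤ) - 1) * N + N = s + -(k : ℤ) * N := by ring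
    rw [this] at h1
    rw [← h1, ih]

theorem tors_add_mul_left {N : ℕ} (hN : N ≠ 0) {r s : ℤ} (h : Prim N r s) {τ : ℂ}
    (hτ : 0 < τ.im) (k : ℤ) : tors N (r + k * N) s τ = tors N r s τ := by
  induction k using Int.induction_on with
  | zero => simp
  | succ k ih =>
    have : r + ((k : ℤ) + 1) * N = (r + k * N) + N := by ring
    rw [this, tors_add_left hN (h.add_left k) hτ, ih]
  | pred k ih =>
    have h1 := tors_add_left hN (h.add_left (-(k : ℤ) - 1)) hτ
    have : r + (-(k : ℤ) - 1) * N + N = r + -(k : ℤ) * N := by ring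
    rw [this] at h1
    rw [← h1, ih]

/-- `tors N r s` depends only on `(r, s) mod N` -/
theorem tors_congr {N : ℕ} (hN : N ≠ 0) {r s r' s' : ℤ} (h : Prim N r s) {τ : ℂ}
    (hτ : 0 < τ.im) (hr : (N : ℤ) ∣ r' - r) (hs : (N : ℤ) ∣ s' - s) :
    tors N r' s' τ = tors N r s τ := by
  obtain ⟨k, hk⟩ := hr
  obtain ⟨l, hl⟩ := hs
  have h1 : r' = r + k * N := by linarith
  have h2 : s' = s + l * N := by linarith
  rw [h1, h2, tors_add_mul_right N hN, tors_add_mul_left hN h hτ]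

end Fermat.Agent.S48.Eis1.KronTors
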