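import Mathlib

/-!
# Finite Fourier analysis for the weight-one Eisenstein multiplier

For a function `ψ` on `ZMod N` we consider its finite Fourier transform
`cf ψ b = ∑ₓ ψ x · e(-b x / N)` and prove the three identities which turn the family
`E_b` (`b ≠ 0 mod ℓ`) of weight-one Eisenstein series into the series
`-S + 2 ℓ ∑ₙ (∑_{d ∣ n} ψ d) qⁿ`, `S = ∑ₐ ψ(a) a`, for an odd character `ψ` modulo a prime `ℓ`.
No Gauss sum is needed (in particular no non-vanishing statement).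
-/

set_option autoImplicit false

noncomputable section

open Finset

namespace Fermat.Agent.S48.Eis1.Fourier

section general

variable {N : ℕ} [NeZero N]

/-- The finite Fourier transform with the standard additive character. -/
def cf (ψ : ZMod N → ℂ) (b : ZMod N) : ℂ :=
  ∑ x : ZMod N, ψ x * ZMod.stdAddChar (-(b * x))

theorem sum_stdAddChar_mul (t : ZMod N) :
    ∑ b : ZMod N, ZMod.stdAddChar (b * t) = if t = 0 then (N : ℂ) else 0 := by
  have h := AddChar.sum_mulShift t (ZMod.isPrimitive_stdAddChar N)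
  rw [h, ZMod.card]
  split_ifs <;> simp

theorem cf_zero (ψ : ZMod N → ℂ) : cf ψ 0 = ∑ x : ZMod N, ψ x := by
  unfold cf
  refine Finset.sum_congr rfl fun x _ => ?_
  rw [zero_mul, neg_zero, AddChar.map_zero_eq_one, mul_one]

/-- Fourier inversion at one point. -/
theorem sum_cf_mul (ψ : ZMod N → ℂ) (r : ZMod N) :
    ∑ b : ZMod N, cf ψ b * ZMod.stdAddChar (b * r) = (N : ℂ) * ψ r := by
  unfold cf
  have h1 : ∀ b : ZMod N,
      (∑ x : ZMod N, ψ x * ZMod.stdAddChar (-(b * x))) * ZMod.stdAddChar (b * r)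
        = ∑ x : ZMod N, ψ x * ZMod.stdAddChar (b * (r - x)) := by
    intro b
    rw [Finset.sum_mul]
    refine Finset.sum_congr rfl fun x _ => ?_
    rw [mul_assoc, ← AddChar.map_add_eq_mul]
    congr 2
    ring
  rw [Finset.sum_congr rfl fun b _ => h1 b, Finset.sum_comm]
  have h2 : ∀ x : ZMod N, ∑ b : ZMod N, ψ x * ZMod.stdAddChar (b * (r - x))
      = if x = r then (N : ℂ) * ψ r else 0 := by
    intro x
    rw [← Finset.mul_sum, sum_stdAddChar_mul]
    by_cases hx : x = r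
    · rw [if_pos hx, if_pos (by rw [hx, sub_self]), hx, mul_comm]
    · rw [if_neg hx, if_neg (fun h => hx (sub_eq_zero.mp h).symm), mul_zero]
  rw [Finset.sum_congr rfl fun x _ => h2 x, Finset.sum_ite_eq' Finset.univ r]
  simp

theorem cf_mul_unit (ψ : MulChar (ZMod N) ℂ) (d : (ZMod N)ˣ) (b : ZMod N) :
    cf ψ (b * d) = ψ ((d⁻¹ : (ZMod N)ˣ) : ZMod N) * cf ψ b := by
  unfold cf
  rw [Finset.mul_sum]
  refine Fintype.sum_equiv (Units.mulLeft d) _ _ fun x => ?_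
  rw [Units.mulLeft_apply, ← mul_assoc, ← map_mul, ← mul_assoc, Units.inv_mul, one_mul, mul_assoc]

/-- The standard additive character in exponential form. -/
theorem stdAddChar_eq_exp (b : ZMod N) :
    ZMod.stdAddChar b = Complex.exp (2 * Real.pi * Complex.I * (b.val : ℂ) / (N : ℂ)) := by
  rw [ZMod.stdAddChar_apply, ZMod.toCircle_apply]

theorem stdAddChar_pow (b : ZMod N) (r : ℕ) :
    ZMod.stdAddChar b ^ r = ZMod.stdAddChar (b * (r : ZMod N)) := by
  rw [← AddChar.map_nsmul_eq_pow, nsmul_eq_mul, mul_comm]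

theorem stdAddChar_inv_pow (b : ZMod N) (r : ℕ) :
    (ZMod.stdAddChar b)⁻¹ ^ r = ZMod.stdAddChar (b * (-(r : ZMod N))) := by
  rw [← AddChar.map_neg_eq_inv, ← AddChar.map_nsmul_eq_pow, nsmul_eq_mul]
  congr 1
  ring

theorem stdAddChar_pow_self (b : ZMod N) : ZMod.stdAddChar b ^ N = 1 := by
  rw [stdAddChar_pow, ZMod.natCast_self, mul_zero, AddChar.map_zero_eq_one]

theorem stdAddChar_ne_one {b : ZMod N} (hb : b ≠ 0) : ZMod.stdAddChar b ≠ 1 := by
  intro h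
  apply hb
  have h0 : ZMod.stdAddChar b = ZMod.stdAddChar (0 : ZMod N) := by
    rw [h, AddChar.map_zero_eq_one]
  exact ZMod.injective_stdAddChar h0

end general

section geom

/-- Summation by parts for `∑ k xᵏ`. -/
theorem sub_one_mul_sum_add (x : ℂ) (n : ℕ) :
    (x - 1) * ∑ k ∈ range n, (k : ℂ) * x ^ k + x * ∑ k ∈ range n, x ^ k = n * x ^ n := by
  induction n with
  | zero => simp
  | succ n ih =>
    rw [Finset.sum_range_succ, Finset.sum_range_succ, mul_add, mul_add]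
    have : (x - 1) * ∑ k ∈ range n, (k : ℂ) * x ^ k + (x - 1) * ((n : ℂ) * x ^ n)
        + (x * ∑ k ∈ range n, x ^ k + x * x ^ n)
        = ((x - 1) * ∑ k ∈ range n, (k : ℂ) * x ^ k + x * ∑ k ∈ range n, x ^ k)
          + ((x - 1) * ((n : ℂ) * x ^ n) + x * x ^ n) := by ring
    rw [this, ih]
    push_cast
    ring

theorem sub_one_mul_sum {x : ℂ} {n : ℕ} (hx : x ^ n = 1) (hx1 : x ≠ 1) :
    (x - 1) * ∑ k ∈ range n, (k : ℂ) * x ^ k = n := by
  have h0 : ∑ k ∈ range n, x ^ k = 0 := by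
    have h := geom_sum_mul x n
    rw [hx, sub_self] at h
    rcases mul_eq_zero.mp h with h | h
    · exact h
    · exact absurd (sub_eq_zero.mp h) hx1
  have h := sub_one_mul_sum_add x n
  rwa [h0, mul_zero, add_zero, hx, mul_one] at h

/-- The constant term `(x+1)/(2(x-1))` at a nontrivial `n`-th root of unity. -/
theorem cTerm_root {x : ℂ} {n : ℕ} (hn : n ≠ 0) (hx : x ^ n = 1) (hx1 : x ≠ 1) :
    (x + 1) / (2 * (x - 1)) = 1 / 2 + (1 / (n : ℂ)) * ∑ k ∈ range n, (k : ℂ) * x ^ k := by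
  have h := sub_one_mul_sum hx hx1
  have hx1' : x - 1 ≠ 0 := sub_ne_zero.mpr hx1
  have hn' : (n : ℂ) ≠ 0 := Nat.cast_ne_zero.mpr hn
  have h2 : ∑ k ∈ range n, (k : ℂ) * x ^ k = (n : ℂ) / (x - 1) := by
    rw [eq_div_iff hx1', mul_comm, h]
  rw [h2]
  field_simp
  ring

/-- Sums over `ZMod N` as sums over `range N`. -/
theorem sum_zmod_eq_sum_range {N : ℕ} [NeZero N] (f : ℕ → ℂ) :
    ∑ k : ZMod N, f k.val = ∑ k ∈ range N, f k := by
  refine Finset.sum_nbij' (fun k => k.val) (fun k => (k : ZMod N)) ?_ ?_ ?_ ?_ ?_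
  · intro a _
    exact Finset.mem_range.mpr (ZMod.val_lt a)
  · intro a _
    exact Finset.mem_univ _
  · intro a _
    exact ZMod.natCast_zmod_val a
  · intro a ha
    exact ZMod.val_cast_of_lt (Finset.mem_range.mp ha)
  · intro a _
    rfl

end geom

section prime

variable {ℓ : ℕ} [Fact ℓ.Prime]

/-- The constant term at a nontrivial `ℓ`-th root of unity, as a sum over `ZMod ℓ`. -/
theorem cTerm_stdAddChar {b : ZMod ℓ} (hb : b ≠ 0) :
    (ZMod.stdAddChar b + 1) / (2 * (ZMod.stdAddChar b - 1))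
      = 1 / 2 + (1 / (ℓ : ℂ)) * ∑ j : ZMod ℓ, (j.val : ℂ) * ZMod.stdAddChar (b * j) := by
  rw [cTerm_root (NeZero.ne ℓ) (stdAddChar_pow_self b) (stdAddChar_ne_one hb),
    ← sum_zmod_eq_sum_range (N := ℓ) (fun k => (k : ℂ) * ZMod.stdAddChar b ^ k)]
  congr 2
  refine Finset.sum_congr rfl fun j _ => ?_
  rw [stdAddChar_pow, ZMod.natCast_zmod_val]

variable (ψ : DirichletCharacter ℂ ℓ)

theorem cf_zero_of_odd (hψ : ψ (-1) = -1) : cf ψ 0 = 0 := by
  rw [cf_zero]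
  apply MulChar.sum_eq_zero_of_ne_one
  intro h1
  rw [h1, MulChar.one_apply (isUnit_one.neg)] at hψ
  norm_num at hψ

/-- Higher coefficients: `∑_b c(b) (ζ_b^{-r} - ζ_b^{r}) = -2 ℓ ψ(r)` for odd `ψ`. -/
theorem sum_cf_mul_pow_sub (hψ : ψ (-1) = -1) (r : ℕ) :
    ∑ b : ZMod ℓ, cf ψ b * ((ZMod.stdAddChar b)⁻¹ ^ r - ZMod.stdAddChar b ^ r)
      = -2 * (ℓ : ℂ) * ψ (r : ZMod ℓ) := by
  have h1 : ∀ b : ZMod ℓ, cf ψ b * ((ZMod.stdAddChar b)⁻¹ ^ r - ZMod.stdAddChar b ^ r)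
      = cf ψ b * ZMod.stdAddChar (b * (-(r : ZMod ℓ)))
        - cf ψ b * ZMod.stdAddChar (b * (r : ZMod ℓ)) := by
    intro b
    rw [stdAddChar_inv_pow, stdAddChar_pow, mul_sub]
  rw [Finset.sum_congr rfl fun b _ => h1 b, Finset.sum_sub_distrib, sum_cf_mul, sum_cf_mul]
  have h2 : ψ (-(r : ZMod ℓ)) = -ψ (r : ZMod ℓ) := by
    rw [neg_eq_neg_one_mul, map_mul, hψ, neg_one_mul]
  rw [h2]
  ring

/-- Constant term: `∑_b c(b) (ζ_b + 1)/(2 (ζ_b - 1)) = ∑_j ψ(j) j` for odd `ψ`. -/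
theorem sum_cf_mul_cTerm (hψ : ψ (-1) = -1) (q0 : ZMod ℓ → ℂ)
    (hq0 : ∀ b : ZMod ℓ, b ≠ 0 →
      q0 b = (ZMod.stdAddChar b + 1) / (2 * (ZMod.stdAddChar b - 1))) :
    ∑ b : ZMod ℓ, cf ψ b * q0 b = ∑ j : ZMod ℓ, ψ j * (j.val : ℂ) := by
  have hℓ : (ℓ : ℂ) ≠ 0 := Nat.cast_ne_zero.mpr (NeZero.ne ℓ)
  have h1 : ∀ b : ZMod ℓ, cf ψ b * q0 b
      = (1 / 2) * (cf ψ b * ZMod.stdAddChar (b * 0))
        + (1 / (ℓ : ℂ)) * ∑ j : ZMod ℓ, (j.val : ℂ) * (cf ψ b * ZMod.stdAddChar (b * j)) := by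
    intro b
    by_cases hb : b = 0
    · rw [hb, cf_zero_of_odd ψ hψ]
      simp
    · rw [hq0 b hb, cTerm_stdAddChar hb, mul_zero, AddChar.map_zero_eq_one, mul_one, mul_add,
        Finset.mul_sum, Finset.mul_sum, Finset.mul_sum]
      congr 1
      · ring
      · refine Finset.sum_congr rfl fun j _ => ?_
        ring
  rw [Finset.sum_congr rfl fun b _ => h1 b, Finset.sum_add_distrib, ← Finset.mul_sum,
    sum_cf_mul, ← Finset.mul_sum, Finset.sum_comm]
  have h2 : ∀ j : ZMod ℓ, ∑ b : ZMod ℓ, (j.val : ℂ) * (cf ψ b * ZMod.stdAddChar (b * j))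
      = (j.val : ℂ) * ((ℓ : ℂ) * ψ j) := by
    intro j
    rw [← Finset.mul_sum, sum_cf_mul]
  rw [Finset.sum_congr rfl fun j _ => h2 j, MulChar.map_zero, mul_zero, mul_zero, zero_add,
    Finset.mul_sum]
  refine Finset.sum_congr rfl fun j _ => ?_
  field_simp

end prime

end Fermat.Agent.S48.Eis1.Fourier
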