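import Mathlib

/-!
# The inverse Teichmüller character with respect to a reduction map

Let `ℓ` be a prime, `k` a field of characteristic `ℓ` and
`φ : integralClosure ℤ ℂ →+* k` a ring homomorphism.  The `(ℓ-1)`-st roots of unity of `ℂ` are
algebraic integers and `φ` maps them bijectively onto the `(ℓ-1)`-st roots of unity of `k`,
i.e. onto the image of `(ZMod ℓ)ˣ`.  We construct the Dirichlet character `ψ` modulo `ℓ` with
`φ (ψ a) * a = 1` for every unit `a` (the inverse of the Teichmüller character), together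
with its integral model `ψb : ZMod ℓ → integralClosure ℤ ℂ`.
-/

set_option autoImplicit false

noncomputable section

namespace Fermat.Agent.S48.Eis1.Teich

/-- The ring of all algebraic integers in `ℂ`. -/
abbrev Zb : Subalgebra ℤ ℂ := integralClosure ℤ ℂ

variable {ℓ : ℕ} [Fact ℓ.Prime] {k : Type*} [Field k] [CharP k ℓ]

/-- `ℓ - 1` is invertible in characteristic `ℓ`: it is `-1`. -/
theorem natCast_pred_eq_neg_one (k : Type*) [Field k] [CharP k ℓ] :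
    ((ℓ - 1 : ℕ) : k) = -1 := by
  have h1 : 1 ≤ ℓ := (Fact.out : ℓ.Prime).one_le
  rw [Nat.cast_sub h1, CharP.cast_eq_zero k ℓ, Nat.cast_one, zero_sub]

/-- An `(ℓ-1)`-st root of unity among the algebraic integers which reduces to `1` is `1`. -/
theorem eq_one_of_map_eq_one (φ : Zb →+* k) {η : Zb} (h1 : η ^ (ℓ - 1) = 1)
    (h2 : φ η = 1) : η = 1 := by
  by_contra hne
  have hgeo : (∑ j ∈ Finset.range (ℓ - 1), η ^ j) * (η - 1) = 0 := by
    rw [geom_sum_mul, h1, sub_self]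
  have hsum : (∑ j ∈ Finset.range (ℓ - 1), η ^ j) = 0 := by
    rcases mul_eq_zero.mp hgeo with h | h
    · exact h
    · exact absurd (sub_eq_zero.mp h) hne
  have h3 : φ (∑ j ∈ Finset.range (ℓ - 1), η ^ j) = ((ℓ - 1 : ℕ) : k) := by
    rw [map_sum]
    have : ∀ j ∈ Finset.range (ℓ - 1), φ (η ^ j) = 1 := by
      intro j _
      rw [map_pow, h2, one_pow]
    rw [Finset.sum_congr rfl this, Finset.sum_const, Finset.card_range, nsmul_eq_mul, mul_one]
  rw [hsum, map_zero, natCast_pred_eq_neg_one k] at h3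
  exact one_ne_zero (neg_eq_zero.mp h3.symm)

/-- The standard primitive `(ℓ-1)`-st root of unity, as an algebraic integer. -/
def zeta0 (ℓ : ℕ) [Fact ℓ.Prime] : Zb :=
  ⟨Complex.exp (2 * Real.pi * Complex.I / ((ℓ - 1 : ℕ) : ℂ)),
    (Complex.isPrimitiveRoot_exp (ℓ - 1)
      (Nat.sub_ne_zero_of_lt (Fact.out : ℓ.Prime).one_lt)).isIntegral
      (Nat.sub_pos_of_lt (Fact.out : ℓ.Prime).one_lt)⟩

theorem isPrimitiveRoot_zeta0 (ℓ : ℕ) [Fact ℓ.Prime] : IsPrimitiveRoot (zeta0 ℓ) (ℓ - 1) := by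
  have h := Complex.isPrimitiveRoot_exp (ℓ - 1)
    (Nat.sub_ne_zero_of_lt (Fact.out : ℓ.Prime).one_lt)
  exact IsPrimitiveRoot.of_map_of_injective (f := (Zb).val) h Subtype.val_injective

theorem isPrimitiveRoot_map_zeta0 (φ : Zb →+* k) : IsPrimitiveRoot (φ (zeta0 ℓ)) (ℓ - 1) := by
  have h0 := isPrimitiveRoot_zeta0 ℓ
  rw [IsPrimitiveRoot.iff_def]
  refine ⟨by rw [← map_pow, h0.pow_eq_one, map_one], ?_⟩
  intro j hj
  rw [← map_pow] at hj
  have h1 : (zeta0 ℓ ^ j) ^ (ℓ - 1) = 1 := by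
    rw [← pow_mul, mul_comm, pow_mul, h0.pow_eq_one, one_pow]
  exact h0.dvd_of_pow_eq_one j (eq_one_of_map_eq_one φ h1 hj)

/-- Every `(ℓ-1)`-st root of unity of `k` is the reduction of one among the algebraic
integers. -/
theorem exists_root_of_pow_eq_one (φ : Zb →+* k) {x : k} (hx : x ^ (ℓ - 1) = 1) :
    ∃ b : Zb, b ^ (ℓ - 1) = 1 ∧ φ b = x := by
  have : NeZero (ℓ - 1) := ⟨Nat.sub_ne_zero_of_lt (Fact.out : ℓ.Prime).one_lt⟩
  obtain ⟨i, _, hi⟩ := (isPrimitiveRoot_map_zeta0 (ℓ := ℓ) φ).eq_pow_of_pow_eq_one hx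
  refine ⟨zeta0 ℓ ^ i, ?_, by rw [map_pow, hi]⟩
  rw [← pow_mul, mul_comm, pow_mul, (isPrimitiveRoot_zeta0 ℓ).pow_eq_one, one_pow]

/-- The reduction of a nonzero residue class is an `(ℓ-1)`-st root of unity of `k`. -/
theorem castHom_pow_eq_one {a : ZMod ℓ} (ha : a ≠ 0) :
    (ZMod.castHom (dvd_refl ℓ) k a) ^ (ℓ - 1) = 1 := by
  rw [← map_pow, ZMod.pow_card_sub_one_eq_one ha, map_one]

/-- The defining property of the value at `a` of the inverse Teichmüller character. -/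
def IsT (φ : Zb →+* k) (a : ZMod ℓ) (b : Zb) : Prop :=
  b ^ (ℓ - 1) = 1 ∧ φ b * ZMod.castHom (dvd_refl ℓ) k a = 1

theorem exists_isT (φ : Zb →+* k) {a : ZMod ℓ} (ha : a ≠ 0) : ∃ b : Zb, IsT φ a b := by
  have hx := castHom_pow_eq_one (k := k) ha
  have hx0 : ZMod.castHom (dvd_refl ℓ) k a ≠ 0 := by
    intro h0
    rw [h0, zero_pow (Nat.sub_ne_zero_of_lt (Fact.out : ℓ.Prime).one_lt)] at hx
    exact zero_ne_one hx
  have hinv : ((ZMod.castHom (dvd_refl ℓ) k a)⁻¹) ^ (ℓ - 1) = 1 := by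
    rw [inv_pow, hx, inv_one]
  obtain ⟨b, hb1, hb2⟩ := exists_root_of_pow_eq_one φ hinv
  exact ⟨b, hb1, by rw [hb2, inv_mul_cancel₀ hx0]⟩

theorem IsT.unique (φ : Zb →+* k) {a : ZMod ℓ} {b b' : Zb} (h : IsT φ a b)
    (h' : IsT φ a b') : b = b' := by
  have hℓ : ℓ - 1 = (ℓ - 2) + 1 := by
    have := (Fact.out : ℓ.Prime).two_le
    omega
  -- `b'` is invertible with inverse `b' ^ (ℓ - 2)`
  have hb' : b' * b' ^ (ℓ - 2) = 1 := by
    rw [← pow_succ', ← hℓ, h'.1]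
  have hη1 : (b * b' ^ (ℓ - 2)) ^ (ℓ - 1) = 1 := by
    rw [mul_pow, h.1, one_mul, ← pow_mul, mul_comm, pow_mul, h'.1, one_pow]
  -- `φ b = φ b'` since both are inverse to the image of `a`
  have hφ : φ b = φ b' := by
    have h1 := h.2
    have h2 := h'.2
    have hx0 : ZMod.castHom (dvd_refl ℓ) k a ≠ 0 := by
      intro h0
      rw [h0, mul_zero] at h1
      exact zero_ne_one h1
    exact mul_right_cancel₀ hx0 (h1.trans h2.symm)
  have hη2 : φ (b * b' ^ (ℓ - 2)) = 1 := by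
    rw [map_mul, hφ, ← map_mul, hb', map_one]
  have hη := eq_one_of_map_eq_one φ hη1 hη2
  calc b = b * (b' * b' ^ (ℓ - 2)) := by rw [hb', mul_one]
    _ = (b * b' ^ (ℓ - 2)) * b' := by ring
    _ = b' := by rw [hη, one_mul]

theorem IsT.one (φ : Zb →+* k) : IsT (ℓ := ℓ) φ 1 1 :=
  ⟨one_pow _, by rw [map_one, map_one, one_mul]⟩

theorem IsT.mul (φ : Zb →+* k) {a a' : ZMod ℓ} {b b' : Zb} (h : IsT φ a b)
    (h' : IsT φ a' b') : IsT φ (a * a') (b * b') := by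
  refine ⟨by rw [mul_pow, h.1, h'.1, one_mul], ?_⟩
  rw [map_mul, map_mul]
  calc φ b * φ b' * (ZMod.castHom (dvd_refl ℓ) k a * ZMod.castHom (dvd_refl ℓ) k a')
      = (φ b * ZMod.castHom (dvd_refl ℓ) k a) * (φ b' * ZMod.castHom (dvd_refl ℓ) k a') := by
        ring
    _ = 1 := by rw [h.2, h'.2, one_mul]

theorem IsT.neg_one (φ : Zb →+* k) (hℓ : 3 ≤ ℓ) : IsT (ℓ := ℓ) φ (-1) (-1) := by
  have hodd : Odd ℓ := (Fact.out : ℓ.Prime).odd_of_ne_two (by omega)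
  have heven : Even (ℓ - 1) := by
    obtain ⟨m, hm⟩ := hodd
    exact ⟨m, by omega⟩
  refine ⟨heven.neg_one_pow, ?_⟩
  rw [map_neg, map_one, map_neg, map_one, neg_mul_neg, one_mul]

/-- The integral model of the inverse Teichmüller character on units. -/
def psiU (φ : Zb →+* k) (a : (ZMod ℓ)ˣ) : Zb :=
  (exists_isT φ a.ne_zero).choose

theorem isT_psiU (φ : Zb →+* k) (a : (ZMod ℓ)ˣ) : IsT φ (a : ZMod ℓ) (psiU φ a) :=
  (exists_isT φ a.ne_zero).choose_spec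

/-- The inverse Teichmüller character as a homomorphism `(ZMod ℓ)ˣ →* ℂ`. -/
def psiHom (φ : Zb →+* k) : (ZMod ℓ)ˣ →* ℂ where
  toFun a := (psiU φ a : ℂ)
  map_one' := by
    have h : psiU φ (1 : (ZMod ℓ)ˣ) = 1 :=
      IsT.unique φ (by simpa only [Units.val_one] using isT_psiU φ (1 : (ZMod ℓ)ˣ)) (IsT.one φ)
    rw [h]
    rfl
  map_mul' a a' := by
    have h : psiU φ (a * a') = psiU φ a * psiU φ a' :=
      IsT.unique φ (by simpa only [Units.val_mul] using isT_psiU φ (a * a'))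
        (IsT.mul φ (isT_psiU φ a) (isT_psiU φ a'))
    rw [h]
    rfl

/-- The inverse Teichmüller character modulo `ℓ` with respect to `φ`. -/
def psi (φ : Zb →+* k) : DirichletCharacter ℂ ℓ :=
  MulChar.ofUnitHom (psiHom φ).toHomUnits

/-- The integral model of `psi`, extended by zero. -/
def psiB (φ : Zb →+* k) (a : ZMod ℓ) : Zb :=
  if h : a ≠ 0 then psiU φ (Units.mk0 a h) else 0

theorem coe_psiB (φ : Zb →+* k) (a : ZMod ℓ) : (psiB φ a : ℂ) = psi φ a := by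
  by_cases h : a ≠ 0
  · have h1 : psi φ a = psi φ ((Units.mk0 a h : (ZMod ℓ)ˣ) : ZMod ℓ) := by
      rw [Units.val_mk0]
    rw [h1, psi, MulChar.ofUnitHom_coe, MonoidHom.coe_toHomUnits, psiB, dif_pos h]
    rfl
  · have h0 : a = 0 := not_not.mp h
    rw [psiB, dif_neg h, h0, MulChar.map_zero]
    rfl

theorem map_psiB_mul (φ : Zb →+* k) {a : ZMod ℓ} (h : a ≠ 0) :
    φ (psiB φ a) * ZMod.castHom (dvd_refl ℓ) k a = 1 := by
  rw [psiB, dif_pos h]
  have := (isT_psiU φ (Units.mk0 a h)).2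
  rwa [Units.val_mk0] at this

theorem psiB_zero (φ : Zb →+* k) : psiB (ℓ := ℓ) φ 0 = 0 := by
  rw [psiB, dif_neg (not_not.mpr rfl)]

theorem psi_neg_one (φ : Zb →+* k) (hℓ : 3 ≤ ℓ) : psi (ℓ := ℓ) φ (-1) = -1 := by
  have hne : (-1 : ZMod ℓ) ≠ 0 := neg_ne_zero.mpr one_ne_zero
  rw [← coe_psiB, psiB, dif_pos hne]
  have h : psiU φ (Units.mk0 (-1 : ZMod ℓ) hne) = -1 :=
    IsT.unique φ (by simpa only [Units.val_mk0] using isT_psiU φ (Units.mk0 (-1 : ZMod ℓ) hne))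
      (IsT.neg_one φ hℓ)
  rw [h]
  norm_num

/-- The clause consumed downstream: on integers prime to `ℓ`. -/
theorem exists_psi_natCast (φ : Zb →+* k) {n : ℕ} (hn : ¬ ℓ ∣ n) :
    ∃ b : Zb, (b : ℂ) = psi φ (n : ZMod ℓ) ∧ φ b * (n : k) = 1 := by
  have hne : (n : ZMod ℓ) ≠ 0 := by
    intro h0
    exact hn ((ZMod.natCast_eq_zero_iff n ℓ).mp h0)
  refine ⟨psiB φ (n : ZMod ℓ), coe_psiB φ _, ?_⟩
  have := map_psiB_mul φ hne
  rwa [map_natCast] at this

/-- `∑ₐ ψ(a) · a ≡ -1`: the reduction of the first generalised Bernoulli sum. -/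
theorem map_sum_psiB_mul_val (φ : Zb →+* k) :
    φ (∑ a : ZMod ℓ, psiB φ a * ((a.val : ℕ) : Zb)) = -1 := by
  rw [map_sum]
  have h1 : ∀ a ∈ (Finset.univ : Finset (ZMod ℓ)),
      φ (psiB φ a * ((a.val : ℕ) : Zb)) = if a = 0 then 0 else 1 := by
    intro a _
    by_cases ha : a = 0
    · rw [if_pos ha, ha, psiB_zero, zero_mul, map_zero]
    · rw [if_neg ha, map_mul, map_natCast]
      have := map_psiB_mul φ ha
      rwa [ZMod.castHom_apply, ← ZMod.natCast_val] at this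
  rw [Finset.sum_congr rfl h1, Finset.sum_ite, Finset.sum_const_zero, zero_add,
    Finset.sum_const, nsmul_eq_mul, mul_one, Finset.filter_not, Finset.filter_eq',
    if_pos (Finset.mem_univ _), Finset.card_sdiff_of_subset (Finset.subset_univ _),
    Finset.card_univ, ZMod.card, Finset.card_singleton]
  exact natCast_pred_eq_neg_one k

/-- The complex value of the integral model of `-∑ₐ ψ(a) · a`. -/
theorem coe_neg_sum_psiB (φ : Zb →+* k) :
    ((-∑ a : ZMod ℓ, psiB φ a * ((a.val : ℕ) : Zb) : Zb) : ℂ)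
      = -∑ a : ZMod ℓ, psi φ a * (a.val : ℂ) := by
  change (Zb).val (-∑ a : ZMod ℓ, psiB φ a * ((a.val : ℕ) : Zb)) = _
  rw [map_neg, map_sum]
  congr 1
  refine Finset.sum_congr rfl fun a _ => ?_
  rw [map_mul, map_natCast]
  change (psiB φ a : ℂ) * _ = _
  rw [coe_psiB]

/-- The complex value of the integral model of `2 ℓ ∑_{r ∈ s} ψ(r)`. -/
theorem coe_two_mul_sum_psiB (φ : Zb →+* k) (s : Finset ℕ) :
    ((2 * ((ℓ : ℕ) : Zb) * ∑ r ∈ s, psiB φ (r : ZMod ℓ) : Zb) : ℂ)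
      = 2 * (ℓ : ℂ) * ∑ r ∈ s, psi φ (r : ZMod ℓ) := by
  change (Zb).val (2 * ((ℓ : ℕ) : Zb) * ∑ r ∈ s, psiB φ (r : ZMod ℓ)) = _
  rw [map_mul, map_mul, map_natCast, map_ofNat, map_sum]
  congr 1
  refine Finset.sum_congr rfl fun r _ => ?_
  change (psiB φ (r : ZMod ℓ) : ℂ) = _
  rw [coe_psiB]

omit [Fact ℓ.Prime] in
/-- `2 ℓ · x` reduces to zero. -/
theorem map_two_mul_natCast_mul (φ : Zb →+* k) (x : Zb) :
    φ (2 * ((ℓ : ℕ) : Zb) * x) = 0 := by
  rw [map_mul, map_mul, map_natCast, CharP.cast_eq_zero k ℓ, mul_zero, zero_mul]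

end Fermat.Agent.S48.Eis1.Teich
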