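import Mathlib
import Fermat.Prelude.Def_FLTPrelim_Modularity
import Fermat.Agent.S48.Eis1.Teich
import Fermat.Agent.S48.Eis1.Fourier

/-!
# The weight-one multiplier `G ≡ 1 (mod λ)` on `Γ₁(ℓ)`

Given the weight-one Eisenstein family `E_b` (`b ≠ 0 mod ℓ`) of level `ℓ` (the seam `EisFamily`,
produced by the analytic bricks) and a reduction map `φ : integralClosure ℤ ℂ →+* k` to a field of
characteristic `ℓ`, we build a modular form `G` of weight one on `Γ₁(ℓ)` with nebentypus the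
inverse Teichmüller character `ψ` with respect to `φ`, whose `q`-expansion
`-S + 2 ℓ ∑ₙ (∑_{d ∣ n} ψ d) qⁿ` has algebraic integer coefficients and reduces to `1` under `φ`.
-/

set_option autoImplicit false

noncomputable section

open UpperHalfPlane CongruenceSubgroup ModularForm ModularFormClass
open scoped MatrixGroups ModularForm

namespace Fermat.Agent.S48.Eis1.Multiplier

open Fermat.Agent.S48.Eis1.Teich Fermat.Agent.S48.Eis1.Fourier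

/-- The `N`-th root of unity `exp (2 π i b / N)` attached to a residue class `b`. -/
def zt (N : ℕ) (b : ZMod N) : ℂ :=
  Complex.exp (2 * Real.pi * Complex.I * (b.val : ℂ) / (N : ℂ))

/-- Output of the analytic bricks: the weight-one Eisenstein family of level `N`
(normalised without `2 π i`). -/
def EisFamily (N : ℕ) [NeZero N] : Prop :=
  ∃ E : ZMod N → ModularForm (Gamma1 N) 1,
    (∀ b : ZMod N, b ≠ 0 → ∀ γ : SL(2, ℤ), γ ∈ Gamma0 N →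
        (⇑(E b)) ∣[(1 : ℤ)] γ = ⇑(E (b * ((γ 1 1 : ℤ) : ZMod N)))) ∧
    (∀ b : ZMod N, b ≠ 0 → qCoeff (E b) 0 = (zt N b + 1) / (2 * (zt N b - 1))) ∧
    (∀ b : ZMod N, b ≠ 0 → ∀ n : ℕ, 0 < n →
        qCoeff (E b) n = ∑ r ∈ n.divisors, ((zt N b)⁻¹ ^ r - zt N b ^ r))

theorem zt_eq (N : ℕ) [NeZero N] (b : ZMod N) : zt N b = ZMod.stdAddChar b :=
  (stdAddChar_eq_exp b).symm

theorem one_mem_strictPeriods_Gamma1 (N : ℕ) :
    (1 : ℝ) ∈ ((Gamma1 N : Subgroup SL(2, ℤ)) : Subgroup (GL (Fin 2) ℝ)).strictPeriods := by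
  simp

section mult

variable {ℓ : ℕ} [Fact ℓ.Prime] (E : ZMod ℓ → ModularForm (Gamma1 ℓ) 1)
  (ψ : DirichletCharacter ℂ ℓ)

/-- The multiplier attached to the family `E` and the character `ψ`. -/
def mult : ModularForm (Gamma1 ℓ) 1 := -(∑ b : ZMod ℓ, cf ψ b • E b)

theorem qCoeff_mult (n : ℕ) :
    qCoeff (mult E ψ) n = -∑ b : ZMod ℓ, cf ψ b * qCoeff (E b) n := by
  have h1 := one_mem_strictPeriods_Gamma1 ℓ
  unfold mult qCoeff
  rw [FunLike.coe_neg, ModularForm.qExpansion_neg one_pos h1, map_neg]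
  congr 1
  have h2 := map_sum (ModularForm.qExpansionAddHom one_pos h1 1)
    (fun b : ZMod ℓ => cf ψ b • E b) Finset.univ
  have h3 : qExpansion 1 (⇑(∑ b : ZMod ℓ, cf ψ b • E b))
      = ∑ b : ZMod ℓ, qExpansion 1 (⇑(cf ψ b • E b)) := h2
  rw [h3, map_sum]
  refine Finset.sum_congr rfl fun b _ => ?_
  rw [FunLike.coe_smul, ModularForm.qExpansion_smul one_pos h1, PowerSeries.coeff_smul,
    smul_eq_mul]

theorem qCoeff_mult_zero (hψ : ψ (-1) = -1)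
    (h0 : ∀ b : ZMod ℓ, b ≠ 0 → qCoeff (E b) 0 = (zt ℓ b + 1) / (2 * (zt ℓ b - 1))) :
    qCoeff (mult E ψ) 0 = -∑ j : ZMod ℓ, ψ j * (j.val : ℂ) := by
  rw [qCoeff_mult, sum_cf_mul_cTerm ψ hψ (fun b => qCoeff (E b) 0)]
  intro b hb
  rw [h0 b hb, zt_eq]

theorem qCoeff_mult_pos (hψ : ψ (-1) = -1)
    (hE : ∀ b : ZMod ℓ, b ≠ 0 → ∀ n : ℕ, 0 < n →
        qCoeff (E b) n = ∑ r ∈ n.divisors, ((zt ℓ b)⁻¹ ^ r - zt ℓ b ^ r))
    {n : ℕ} (hn : 0 < n) :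
    qCoeff (mult E ψ) n = 2 * (ℓ : ℂ) * ∑ r ∈ n.divisors, ψ (r : ZMod ℓ) := by
  rw [qCoeff_mult]
  have h1 : ∀ b : ZMod ℓ, cf ψ b * qCoeff (E b) n
      = ∑ r ∈ n.divisors,
          cf ψ b * ((ZMod.stdAddChar b)⁻¹ ^ r - ZMod.stdAddChar b ^ r) := by
    intro b
    by_cases hb : b = 0
    · rw [hb, cf_zero_of_odd ψ hψ]
      simp
    · rw [hE b hb n hn, Finset.mul_sum, zt_eq]
  rw [Finset.sum_congr rfl fun b _ => h1 b, Finset.sum_comm,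
    Finset.sum_congr rfl fun r _ => sum_cf_mul_pow_sub ψ hψ r, ← Finset.mul_sum]
  ring

/-- The lower right entry of an element of `Γ₀(ℓ)` is a unit modulo `ℓ`. -/
theorem exists_unit_of_mem_Gamma0 {N : ℕ} {γ : SL(2, ℤ)} (hγ : γ ∈ Gamma0 N) :
    ∃ d : (ZMod N)ˣ, (d : ZMod N) = ((γ 1 1 : ℤ) : ZMod N) := by
  have hdet : γ 0 0 * γ 1 1 - γ 0 1 * γ 1 0 = 1 := by
    have := γ.det_coe
    rwa [Matrix.det_fin_two] at this
  have hc : ((γ 1 0 : ℤ) : ZMod N) = 0 := Gamma0_mem.mp hγ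
  have h1 : ((γ 1 1 : ℤ) : ZMod N) * ((γ 0 0 : ℤ) : ZMod N) = 1 := by
    have h2 : (((γ 0 0 * γ 1 1 - γ 0 1 * γ 1 0 : ℤ)) : ZMod N) = 1 := by
      rw [hdet, Int.cast_one]
    rw [Int.cast_sub, Int.cast_mul, Int.cast_mul, hc, mul_zero, sub_zero] at h2
    rw [mul_comm]
    exact h2
  exact ⟨Units.mkOfMulEqOne _ _ h1, rfl⟩

theorem slash_mult (hψ : ψ (-1) = -1)
    (hsl : ∀ b : ZMod ℓ, b ≠ 0 → ∀ γ : SL(2, ℤ), γ ∈ Gamma0 ℓ →
        (⇑(E b)) ∣[(1 : ℤ)] γ = ⇑(E (b * ((γ 1 1 : ℤ) : ZMod ℓ))))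
    (γ : SL(2, ℤ)) (hγ : γ ∈ Gamma0 ℓ) :
    (⇑(mult E ψ)) ∣[(1 : ℤ)] γ = ψ ((γ 1 1 : ℤ) : ZMod ℓ) • ⇑(mult E ψ) := by
  obtain ⟨d, hd⟩ := exists_unit_of_mem_Gamma0 hγ
  have hcoe : (⇑(mult E ψ) : ℍ → ℂ) = -∑ b : ZMod ℓ, cf ψ b • (⇑(E b) : ℍ → ℂ) := by
    unfold mult
    rw [FunLike.coe_neg, FunLike.coe_sum]
    rfl
  rw [hcoe, SlashAction.neg_slash, SlashAction.sum_slash, smul_neg, Finset.smul_sum]
  congr 1
  have h1 : ∀ b : ZMod ℓ, (cf ψ b • (⇑(E b) : ℍ → ℂ)) ∣[(1 : ℤ)] γ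
      = cf ψ b • (⇑(E (b * (d : ZMod ℓ))) : ℍ → ℂ) := by
    intro b
    rw [ModularForm.SL_smul_slash]
    by_cases hb : b = 0
    · rw [hb, cf_zero_of_odd ψ hψ, zero_smul, zero_smul]
    · rw [hsl b hb γ hγ, hd]
  rw [Finset.sum_congr rfl fun b _ => h1 b]
  refine Fintype.sum_equiv (Units.mulRight d) _ _ fun b => ?_
  rw [Units.mulRight_apply, cf_mul_unit ψ d b, ← hd, smul_smul, ← mul_assoc, ← map_mul,
    Units.mul_inv, map_one, one_mul]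

end mult

/-- **The weight-one multiplier.**  For a prime `ℓ ≥ 3` and a reduction map `φ` to a field of
characteristic `ℓ` there are a Dirichlet character `ψ` modulo `ℓ` (the inverse Teichmüller
character with respect to `φ`) and a modular form `G` of weight one on `Γ₁(ℓ)` with nebentypus
`ψ`, whose `q`-expansion coefficients are algebraic integers and reduce to those of the constant
`1` under `φ`. -/
theorem exists_weightOne_multiplier (ℓ : ℕ) [Fact ℓ.Prime] (hℓ : 3 ≤ ℓ) (hX : EisFamily ℓ)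
    {k : Type*} [Field k] [CharP k ℓ] (φ : integralClosure ℤ ℂ →+* k) :
    ∃ (ψ : DirichletCharacter ℂ ℓ) (G : ModularForm (Gamma1 ℓ) 1),
      (∀ γ : SL(2, ℤ), γ ∈ Gamma0 ℓ →
        (⇑G) ∣[(1 : ℤ)] γ = ψ ((γ 1 1 : ℤ) : ZMod ℓ) • ⇑G) ∧
      (∀ n : ℕ, ¬ ℓ ∣ n →
        ∃ b : integralClosure ℤ ℂ, (b : ℂ) = ψ (n : ZMod ℓ) ∧ φ b * (n : k) = 1) ∧
      (∀ n : ℕ, ∃ c : integralClosure ℤ ℂ,
        (c : ℂ) = qCoeff G n ∧ φ c = if n = 0 then 1 else 0) := by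
  obtain ⟨E, hsl, h0, hE⟩ := hX
  have hψ : psi φ (-1) = -1 := psi_neg_one φ hℓ
  refine ⟨psi φ, mult E (psi φ), slash_mult E (psi φ) hψ hsl, fun n hn => exists_psi_natCast φ hn,
    ?_⟩
  intro n
  rcases Nat.eq_zero_or_pos n with hn | hn
  · refine ⟨-∑ a : ZMod ℓ, psiB φ a * ((a.val : ℕ) : Zb), ?_, ?_⟩
    · rw [hn, qCoeff_mult_zero E (psi φ) hψ h0, coe_neg_sum_psiB]
    · rw [if_pos hn, map_neg, map_sum_psiB_mul_val, neg_neg]
  · refine ⟨2 * ((ℓ : ℕ) : Zb) * ∑ r ∈ n.divisors, psiB φ (r : ZMod ℓ), ?_, ?_⟩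
    · rw [qCoeff_mult_pos E (psi φ) hψ hE hn, coe_two_mul_sum_psiB]
    · rw [if_neg hn.ne', map_two_mul_natCast_mul]

end Fermat.Agent.S48.Eis1.Multiplier
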