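import Mathlib
import Fermat.Prelude.Def_FLTPrelim_Modularity
import Fermat.Agent.S48.Eis1.Multiplier
import Fermat.Agent.S48.Mult.Family

/-!
# The weight-one multiplier, hypothesis-free

`Fermat.Agent.S48.Mult.eisFamily` (the analytic brick: weight-one Eisenstein family on `Γ₁(N)`)
discharges the seam `EisFamily` of `Fermat.Agent.S48.Eis1.Multiplier`.
-/

set_option autoImplicit false

noncomputable section

open UpperHalfPlane CongruenceSubgroup ModularForm ModularFormClass
open scoped MatrixGroups ModularForm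

namespace Fermat.Agent.S48.Eis1.MultiplierMain

/-- The two copies of the root of unity agree. -/
theorem zt_eq (N : ℕ) (b : ZMod N) :
    Fermat.Agent.S48.Mult.zt N b = Fermat.Agent.S48.Eis1.Multiplier.zt N b := rfl

/-- The seam is a theorem. -/
theorem eisFamily (N : ℕ) [NeZero N] : Fermat.Agent.S48.Eis1.Multiplier.EisFamily N := by
  obtain ⟨E, h1, h2, h3⟩ := Fermat.Agent.S48.Mult.eisFamily N
  exact ⟨E, h1, h2, h3⟩

/-- **The weight-one multiplier** (brick B7a).  For a prime `ℓ ≥ 3`, a field `k` of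
characteristic `ℓ` and a ring homomorphism `φ : integralClosure ℤ ℂ →+* k` there are a Dirichlet
character `ψ` modulo `ℓ` and a modular form `G` of weight one on `Γ₁(ℓ)` such that

* `G ∣[1] γ = ψ(d_γ) • G` for `γ ∈ Γ₀(ℓ)` (nebentypus `ψ`);
* `ψ` is the inverse Teichmüller character with respect to `φ`: `ψ(n)` is an algebraic integer
  with `φ (ψ n) · n = 1` in `k` for every integer `n` prime to `ℓ`;
* every `q`-expansion coefficient of `G` is an algebraic integer, the constant coefficient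
  reduces to `1` under `φ` and all higher coefficients reduce to `0`:  `G ≡ 1 (mod ker φ)`. -/
theorem exists_weightOne_multiplier (ℓ : ℕ) [Fact ℓ.Prime] (hℓ : 3 ≤ ℓ)
    {k : Type*} [Field k] [CharP k ℓ] (φ : integralClosure ℤ ℂ →+* k) :
    ∃ (ψ : DirichletCharacter ℂ ℓ) (G : ModularForm (Gamma1 ℓ) 1),
      (∀ γ : SL(2, ℤ), γ ∈ Gamma0 ℓ →
        (⇑G) ∣[(1 : ℤ)] γ = ψ ((γ 1 1 : ℤ) : ZMod ℓ) • ⇑G) ∧
      (∀ n : ℕ, ¬ ℓ ∣ n →
        ∃ b : integralClosure ℤ ℂ, (b : ℂ) = ψ (n : ZMod ℓ) ∧ φ b * (n : k) = 1) ∧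
      (∀ n : ℕ, ∃ c : integralClosure ℤ ℂ,
        (c : ℂ) = qCoeff G n ∧ φ c = if n = 0 then 1 else 0) :=
  Fermat.Agent.S48.Eis1.Multiplier.exists_weightOne_multiplier ℓ hℓ (eisFamily ℓ) φ

end Fermat.Agent.S48.Eis1.MultiplierMain
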